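/-
Program K (S31) prework, chapter PET (Petersson product), helper21.

# FD-weights: fundamental domains "with multiplicity", by hand

Let a group `G` act on a measure space `(X, μ)` by measure preserving maps.  For a family
`a : A → G` (typically `A` a countable group and `a` a homomorphism, e.g. a subgroup of
`SL(2, ℤ)` mapped to `GL(2, ℝ)` acting on the upper half plane), an *FD-weight* is a measurable
`w : X → ℝ≥0∞` together with a constant `m` such that `∑' x : A, w (a x • z) = m` for almost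
every `z`.  (Example: `w` the indicator of the standard fundamental domain of `SL(2, ℤ)`, `m = 2`
because `-1` acts trivially.)  The integral `m⁻¹ ∫ φ w dμ` of an invariant function `φ` is then
independent of the FD-weight (`mul_lintegral_eq`); FD-weights restrict to subgroups
(`subgroup`) and can be conjugated (`conj`).  This replaces the theory of fundamental domains of
finite index / conjugate subgroups in the construction of the Petersson product.
-/
import Mathlib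

set_option autoImplicit false

namespace Fermat.Agent.ES.PET.FDWeight21

open MeasureTheory ENNReal

variable {G X : Type*} [Group G] [MulAction G X] [MeasurableSpace X] [MeasurableConstSMul G X]

/-- `(w, m)` is an *FD-weight* for the family `a : A → G` acting on `(X, μ)`. -/
structure IsFDWeight (μ : Measure X) {A : Type*} (a : A → G) (w : X → ℝ≥0∞) (m : ℝ≥0∞) :
    Prop where
  measurable : Measurable w
  ae_sum : ∀ᵐ z ∂μ, ∑' x : A, w (a x • z) = m

variable {μ : Measure X}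

/-- Reindexing along a bijection. -/
theorem IsFDWeight.reindex {A B : Type*} {a : A → G} {w : X → ℝ≥0∞} {m : ℝ≥0∞}
    (h : IsFDWeight μ a w m) (e : B ≃ A) : IsFDWeight μ (fun y => a (e y)) w m where
  measurable := h.measurable
  ae_sum := by
    filter_upwards [h.ae_sum] with z hz
    rw [← hz]
    exact e.tsum_eq fun x => w (a x • z)

/-- Reindexing along a bijection, with a pointwise description of the new family. -/
theorem IsFDWeight.reindex' {A B : Type*} {a : A → G} {b : B → G} {w : X → ℝ≥0∞} {m : ℝ≥0∞}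
    (h : IsFDWeight μ a w m) (e : B ≃ A) (hb : ∀ y, b y = a (e y)) : IsFDWeight μ b w m := by
  have : b = fun y => a (e y) := funext hb
  rw [this]
  exact h.reindex e

/-- **Conjugation**: if `(w, m)` is an FD-weight for `a`, then `(w ∘ β⁻¹, m)` is an FD-weight for
`β a β⁻¹`. -/
theorem IsFDWeight.conj [SMulInvariantMeasure G X μ] {A : Type*} {a : A → G} {w : X → ℝ≥0∞}
    {m : ℝ≥0∞} (h : IsFDWeight μ a w m) (β : G) :
    IsFDWeight μ (fun x => β * a x * β⁻¹) (fun u => w (β⁻¹ • u)) m where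
  measurable := h.measurable.comp (measurable_const_smul _)
  ae_sum := by
    have := (measurePreserving_smul β⁻¹ μ).quasiMeasurePreserving.ae h.ae_sum
    filter_upwards [this] with u hu
    rw [← hu]
    refine tsum_congr fun x => ?_
    rw [← mul_smul, ← mul_smul, ← mul_assoc, ← mul_assoc, inv_mul_cancel, one_mul]

/-- **Subgroups**: if `(w, m)` is an FD-weight for `ρ : H → G` and `H = ⊔ i, (g i)⁻¹ H'`, then
`(∑ i, w ∘ (g i)⁻¹, m)` is an FD-weight for `H'`. -/
theorem IsFDWeight.subgroup {H : Type*} [Group H] (ρ : H →* G) {w : X → ℝ≥0∞} {m : ℝ≥0∞}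
    (h : IsFDWeight μ ρ w m) (H' : Subgroup H) {ι : Type*} [Countable ι] (g : ι → H)
    (e : ι × H' ≃ H) (he : ∀ i (h' : H'), e (i, h') = (g i)⁻¹ * h') :
    IsFDWeight μ (fun h' : H' => ρ h') (fun u => ∑' i, w ((ρ (g i))⁻¹ • u)) m where
  measurable := Measurable.ennreal_tsum fun i => h.measurable.comp (measurable_const_smul _)
  ae_sum := by
    filter_upwards [h.ae_sum] with z hz
    rw [← hz, ENNReal.tsum_comm, ← ENNReal.tsum_prod (f := fun i (h' : H') =>
      w ((ρ (g i))⁻¹ • ρ (h' : H) • z)), ← e.tsum_eq fun x => w (ρ x • z)]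
    refine tsum_congr fun x => ?_
    obtain ⟨i, h'⟩ := x
    rw [he, map_mul, map_inv, mul_smul]

/-- **Independence of the FD-weight** (unfolding twice): for an invariant `φ ≥ 0`,
`m₂ ∫ φ w₁ = m₁ ∫ φ w₂`. -/
theorem IsFDWeight.mul_lintegral_eq [SMulInvariantMeasure G X μ] {H : Type*} [Group H]
    [Countable H] (ρ : H →* G) {w₁ w₂ : X → ℝ≥0∞} {m₁ m₂ : ℝ≥0∞} (h₁ : IsFDWeight μ ρ w₁ m₁)
    (h₂ : IsFDWeight μ ρ w₂ m₂) {φ : X → ℝ≥0∞} (hφ : Measurable φ)
    (hinv : ∀ (x : H) (z : X), φ (ρ x • z) = φ z) :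
    m₂ * ∫⁻ z, φ z * w₁ z ∂μ = m₁ * ∫⁻ z, φ z * w₂ z ∂μ := by
  have key : ∀ x : H, ∫⁻ z, φ z * w₁ z * w₂ (ρ x • z) ∂μ
      = ∫⁻ u, φ u * w₂ u * w₁ ((ρ x)⁻¹ • u) ∂μ := by
    intro x
    have hmp := measurePreserving_smul (ρ x) μ
    have hF : Measurable fun u => φ u * w₂ u * w₁ ((ρ x)⁻¹ • u) :=
      (hφ.mul h₂.measurable).mul (h₁.measurable.comp (measurable_const_smul _))
    rw [← hmp.lintegral_comp hF]
    refine lintegral_congr fun z => ?_
    rw [hinv x z, inv_smul_smul]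
    ring
  have hm₁ : Measurable fun z => φ z * w₁ z := hφ.mul h₁.measurable
  have hm₂ : Measurable fun z => φ z * w₂ z := hφ.mul h₂.measurable
  calc m₂ * ∫⁻ z, φ z * w₁ z ∂μ = ∫⁻ z, φ z * w₁ z * m₂ ∂μ := by
        rw [lintegral_mul_const _ hm₁, mul_comm]
    _ = ∫⁻ z, φ z * w₁ z * ∑' x : H, w₂ (ρ x • z) ∂μ := by
        refine lintegral_congr_ae ?_
        filter_upwards [h₂.ae_sum] with z hz
        rw [hz]
    _ = ∫⁻ z, ∑' x : H, φ z * w₁ z * w₂ (ρ x • z) ∂μ := by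
        simp_rw [ENNReal.tsum_mul_left]
    _ = ∑' x : H, ∫⁻ z, φ z * w₁ z * w₂ (ρ x • z) ∂μ := by
        rw [lintegral_tsum]
        intro x
        exact ((hφ.mul h₁.measurable).mul
          (h₂.measurable.comp (measurable_const_smul _))).aemeasurable
    _ = ∑' x : H, ∫⁻ u, φ u * w₂ u * w₁ ((ρ x)⁻¹ • u) ∂μ := by simp_rw [key]
    _ = ∫⁻ u, ∑' x : H, φ u * w₂ u * w₁ ((ρ x)⁻¹ • u) ∂μ := by
        rw [lintegral_tsum]
        intro x
        exact ((hφ.mul h₂.measurable).mul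
          (h₁.measurable.comp (measurable_const_smul _))).aemeasurable
    _ = ∫⁻ u, φ u * w₂ u * ∑' x : H, w₁ ((ρ x)⁻¹ • u) ∂μ := by
        simp_rw [ENNReal.tsum_mul_left]
    _ = ∫⁻ u, φ u * w₂ u * m₁ ∂μ := by
        refine lintegral_congr_ae ?_
        filter_upwards [h₁.ae_sum] with u hu
        have : ∑' x : H, w₁ ((ρ x)⁻¹ • u) = ∑' x : H, w₁ (ρ x • u) := by
          rw [← (Equiv.inv H).tsum_eq fun x => w₁ (ρ x • u)]
          refine tsum_congr fun x => ?_
          rw [Equiv.inv_apply, map_inv]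
        rw [this, hu]
    _ = m₁ * ∫⁻ u, φ u * w₂ u ∂μ := by
        rw [lintegral_mul_const _ hm₂, mul_comm]


/-! ### Bochner integral versions -/

/-- the weighted integrand is integrable: bounded measurable times a weight of finite mass. -/
theorem integrable_mul_toReal {w : X → ℝ≥0∞} (hw : Measurable w) (hfin : ∫⁻ z, w z ∂μ ≠ ∞)
    {ψ : X → ℝ} (hψ : Measurable ψ) {C : ℝ} (hb : ∀ z, |ψ z| ≤ C) :
    Integrable (fun z => ψ z * (w z).toReal) μ :=
  (integrable_toReal_of_lintegral_ne_top hw.aemeasurable hfin).bdd_mul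
    hψ.aestronglyMeasurable (c := C) (Filter.Eventually.of_forall fun z => by
      rw [Real.norm_eq_abs]; exact hb z)

/-- the Bochner integral against a weight in terms of Lebesgue integrals of the two parts. -/
theorem integral_mul_toReal_eq {w : X → ℝ≥0∞} (hw : Measurable w) (hfin : ∫⁻ z, w z ∂μ ≠ ∞)
    {ψ : X → ℝ} (hψ : Measurable ψ) {C : ℝ} (hb : ∀ z, |ψ z| ≤ C) :
    ∫ z, ψ z * (w z).toReal ∂μ =
      (∫⁻ z, ENNReal.ofReal (ψ z) * w z ∂μ).toReal
        - (∫⁻ z, ENNReal.ofReal (-ψ z) * w z ∂μ).toReal := by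
  rw [integral_eq_lintegral_pos_part_sub_lintegral_neg_part
    (integrable_mul_toReal hw hfin hψ hb)]
  have hae := ae_lt_top hw hfin
  congr 2
  · refine lintegral_congr_ae ?_
    filter_upwards [hae] with z hz
    rw [ENNReal.ofReal_mul' ENNReal.toReal_nonneg, ENNReal.ofReal_toReal hz.ne]
  · refine lintegral_congr_ae ?_
    filter_upwards [hae] with z hz
    rw [← neg_mul, ENNReal.ofReal_mul' ENNReal.toReal_nonneg, ENNReal.ofReal_toReal hz.ne]

/-- **Independence of the FD-weight**, real Bochner form. -/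
theorem IsFDWeight.mul_integral_eq_real [SMulInvariantMeasure G X μ] {H : Type*} [Group H]
    [Countable H] (ρ : H →* G) {w₁ w₂ : X → ℝ≥0∞} {m₁ m₂ : ℝ≥0∞} (h₁ : IsFDWeight μ ρ w₁ m₁)
    (h₂ : IsFDWeight μ ρ w₂ m₂) (hfin₁ : ∫⁻ z, w₁ z ∂μ ≠ ∞) (hfin₂ : ∫⁻ z, w₂ z ∂μ ≠ ∞)
    {ψ : X → ℝ} (hψ : Measurable ψ) {C : ℝ} (hb : ∀ z, |ψ z| ≤ C)
    (hinv : ∀ (x : H) (z : X), ψ (ρ x • z) = ψ z) :
    m₂.toReal * ∫ z, ψ z * (w₁ z).toReal ∂μ = m₁.toReal * ∫ z, ψ z * (w₂ z).toReal ∂μ := by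
  rw [integral_mul_toReal_eq h₁.measurable hfin₁ hψ hb,
    integral_mul_toReal_eq h₂.measurable hfin₂ hψ hb, mul_sub, mul_sub, ← ENNReal.toReal_mul,
    ← ENNReal.toReal_mul, ← ENNReal.toReal_mul, ← ENNReal.toReal_mul]
  have hp := h₁.mul_lintegral_eq ρ h₂ (φ := fun z => ENNReal.ofReal (ψ z))
    (ENNReal.measurable_ofReal.comp hψ) (fun x z => by rw [hinv])
  have hn := h₁.mul_lintegral_eq ρ h₂ (φ := fun z => ENNReal.ofReal (-ψ z))
    (ENNReal.measurable_ofReal.comp hψ.neg) (fun x z => by rw [hinv])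
  rw [hp, hn]

/-- the complex weighted integrand is integrable. -/
theorem integrable_mul_toReal_complex {w : X → ℝ≥0∞} (hw : Measurable w)
    (hfin : ∫⁻ z, w z ∂μ ≠ ∞) {ψ : X → ℂ} (hψ : Measurable ψ) {C : ℝ} (hb : ∀ z, ‖ψ z‖ ≤ C) :
    Integrable (fun z => ψ z * ((w z).toReal : ℂ)) μ :=
  ((integrable_toReal_of_lintegral_ne_top hw.aemeasurable hfin).ofReal (𝕜 := ℂ)).bdd_mul
    hψ.aestronglyMeasurable (c := C) (Filter.Eventually.of_forall hb)

/-- **Independence of the FD-weight**, complex Bochner form. -/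
theorem IsFDWeight.mul_integral_eq [SMulInvariantMeasure G X μ] {H : Type*} [Group H]
    [Countable H] (ρ : H →* G) {w₁ w₂ : X → ℝ≥0∞} {m₁ m₂ : ℝ≥0∞} (h₁ : IsFDWeight μ ρ w₁ m₁)
    (h₂ : IsFDWeight μ ρ w₂ m₂) (hfin₁ : ∫⁻ z, w₁ z ∂μ ≠ ∞) (hfin₂ : ∫⁻ z, w₂ z ∂μ ≠ ∞)
    {ψ : X → ℂ} (hψ : Measurable ψ) {C : ℝ} (hb : ∀ z, ‖ψ z‖ ≤ C)
    (hinv : ∀ (x : H) (z : X), ψ (ρ x • z) = ψ z) :
    (m₂.toReal : ℂ) * ∫ z, ψ z * ((w₁ z).toReal : ℂ) ∂μ
      = (m₁.toReal : ℂ) * ∫ z, ψ z * ((w₂ z).toReal : ℂ) ∂μ := by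
  have hre : ∀ z, |(ψ z).re| ≤ C := fun z => (Complex.abs_re_le_norm _).trans (hb z)
  have him : ∀ z, |(ψ z).im| ≤ C := fun z => (Complex.abs_im_le_norm _).trans (hb z)
  have hi₁ := integrable_mul_toReal_complex h₁.measurable hfin₁ hψ hb
  have hi₂ := integrable_mul_toReal_complex h₂.measurable hfin₂ hψ hb
  have hR := h₁.mul_integral_eq_real ρ h₂ hfin₁ hfin₂ (ψ := fun z => (ψ z).re)
    (Complex.measurable_re.comp hψ) hre (fun x z => by rw [hinv])
  have hI := h₁.mul_integral_eq_real ρ h₂ hfin₁ hfin₂ (ψ := fun z => (ψ z).im)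
    (Complex.measurable_im.comp hψ) him (fun x z => by rw [hinv])
  have e1 : ∀ (w : X → ℝ≥0∞) z, (ψ z * ((w z).toReal : ℂ)).re = (ψ z).re * (w z).toReal := by
    intro w z; simp
  have e2 : ∀ (w : X → ℝ≥0∞) z, (ψ z * ((w z).toReal : ℂ)).im = (ψ z).im * (w z).toReal := by
    intro w z; simp
  apply Complex.ext
  · rw [Complex.re_ofReal_mul, Complex.re_ofReal_mul]
    have r1 := integral_re hi₁
    have r2 := integral_re hi₂
    simp only [RCLike.re_to_complex, e1] at r1 r2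
    rw [← r1, ← r2]
    exact hR
  · rw [Complex.im_ofReal_mul, Complex.im_ofReal_mul]
    have r1 := integral_im hi₁
    have r2 := integral_im hi₂
    simp only [RCLike.im_to_complex, e2] at r1 r2
    rw [← r1, ← r2]
    exact hI

/-- **Unfolding a finite equivariant family**: if `ψ i z = ψ₀ (γ i • z)`, then
`∑ i, ∫ ψ i * w = ∫ ψ₀ * (∑ i, w ∘ (γ i)⁻¹)`. -/
theorem sum_integral_family [SMulInvariantMeasure G X μ] {ι : Type*} [Fintype ι] (γ : ι → G)
    {w : X → ℝ≥0∞} (hw : Measurable w) (hfin : ∫⁻ z, w z ∂μ ≠ ∞) (htop : ∀ z, w z ≠ ∞)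
    {ψ₀ : X → ℂ} (hψ₀ : Measurable ψ₀) {C : ℝ} (hb : ∀ z, ‖ψ₀ z‖ ≤ C) :
    ∑ i, ∫ z, ψ₀ (γ i • z) * ((w z).toReal : ℂ) ∂μ
      = ∫ u, ψ₀ u * ((∑ i, w ((γ i)⁻¹ • u)).toReal : ℂ) ∂μ := by
  have h1 : ∀ i, ∫ z, ψ₀ (γ i • z) * ((w z).toReal : ℂ) ∂μ
      = ∫ u, ψ₀ u * ((w ((γ i)⁻¹ • u)).toReal : ℂ) ∂μ := by
    intro i
    rw [← integral_smul_eq_self (μ := μ) (fun u => ψ₀ u * ((w ((γ i)⁻¹ • u)).toReal : ℂ))
      (g := γ i)]
    simp only [inv_smul_smul]
  simp_rw [h1]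
  rw [← integral_finset_sum]
  · refine integral_congr_ae (Filter.Eventually.of_forall fun u => ?_)
    simp only
    rw [ENNReal.toReal_sum fun i _ => htop _, Complex.ofReal_sum, Finset.mul_sum]
  · intro i _
    have hwi : Measurable fun u => w ((γ i)⁻¹ • u) := hw.comp (measurable_const_smul _)
    have hfi : ∫⁻ u, w ((γ i)⁻¹ • u) ∂μ ≠ ∞ := by
      rw [(measurePreserving_smul (γ i)⁻¹ μ).lintegral_comp hw]
      exact hfin
    exact integrable_mul_toReal_complex hwi hfi hψ₀ hb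

end Fermat.Agent.ES.PET.FDWeight21
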