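/-
Program K (S31) prework, chapter PET (Petersson product), helper21.

# The abstract adjointness theorem

`G` acts on `(X, μ)` by measure preserving maps, `ρ : H →* G` is a countable group with an
FD-weight `(w, m)` of finite mass, `H` acts on the right on a finite set `I` transitively
(`perm`).  For two `perm`-equivariant families `Ψ, Ψ' : I → X → ℂ` which are related at the base
points by `Ψ i₀ z = Ψ' j₀ (β • z)`, where `β ∈ G` conjugates the stabiliser of `i₀` onto the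
stabiliser of `j₀`, the weighted integrals of `∑ i, Ψ i` and `∑ i, Ψ' i` agree.

With `H = Γ₀(N)`, `I = P¹(F_ℓ)`, `Ψ i = petersson (f ∣ β_i) g`, `Ψ' i = petersson f (g ∣ β_i)`
this is the self-adjointness of `T_ℓ` for the Petersson product.
-/
import Fermat.Agent.ES.PET.FDWeight21

set_option autoImplicit false

namespace Fermat.Agent.ES.PET.FDAdjoint21

open MeasureTheory ENNReal Fermat.Agent.ES.PET.FDWeight21

/-- a right action of `H` on `I`, unbundled. -/
structure RAct (H I : Type*) [Group H] where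
  perm : H → I → I
  perm_mul : ∀ x y i, perm (x * y) i = perm y (perm x i)
  perm_one : ∀ i, perm 1 i = i

namespace RAct

variable {H I : Type*} [Group H] (A : RAct H I)

theorem perm_inv_perm (x : H) (i : I) : A.perm x⁻¹ (A.perm x i) = i := by
  rw [← A.perm_mul, mul_inv_cancel, A.perm_one]

theorem perm_perm_inv (x : H) (i : I) : A.perm x (A.perm x⁻¹ i) = i := by
  rw [← A.perm_mul, inv_mul_cancel, A.perm_one]

/-- the stabiliser of a point. -/
def stab (i : I) : Subgroup H where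
  carrier := {x | A.perm x i = i}
  mul_mem' := by
    intro a b ha hb
    simp only [Set.mem_setOf_eq] at ha hb ⊢
    rw [A.perm_mul, ha, hb]
  one_mem' := A.perm_one i
  inv_mem' := by
    intro a ha
    simp only [Set.mem_setOf_eq] at ha ⊢
    conv_lhs => rw [← ha]
    exact A.perm_inv_perm a i

theorem mem_stab {i : I} {x : H} : x ∈ A.stab i ↔ A.perm x i = i := Iff.rfl

/-- `H = ⊔ i, (g i)⁻¹ Stab(i₀)` for representatives `g i` with `i₀ · g i = i`. -/
def decomp (i₀ : I) (g : I → H) (hg : ∀ i, A.perm (g i) i₀ = i) : I × A.stab i₀ ≃ H where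
  toFun x := (g x.1)⁻¹ * (x.2 : H)
  invFun x := (A.perm x⁻¹ i₀, ⟨g (A.perm x⁻¹ i₀) * x, by
    rw [mem_stab, A.perm_mul, hg, A.perm_perm_inv]⟩)
  left_inv := by
    rintro ⟨i, σ, hσ⟩
    have h1 : A.perm ((g i)⁻¹ * σ)⁻¹ i₀ = i := by
      rw [mul_inv_rev, inv_inv, A.perm_mul, (A.stab i₀).inv_mem hσ, hg]
    simp only [h1, mul_inv_cancel_left]
  right_inv := by
    intro x
    simp only [inv_mul_cancel_left]

theorem decomp_apply (i₀ : I) (g : I → H) (hg : ∀ i, A.perm (g i) i₀ = i) (i : I)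
    (σ : A.stab i₀) : A.decomp i₀ g hg (i, σ) = (g i)⁻¹ * (σ : H) := rfl

end RAct

variable {G X : Type*} [Group G] [MulAction G X] [MeasurableSpace X] [MeasurableConstSMul G X]
  {μ : Measure X} [SMulInvariantMeasure G X μ]

section Unfold

variable {H : Type*} [Group H] (ρ : H →* G) {w : X → ℝ≥0∞} {m : ℝ≥0∞}
  {I : Type*} [Fintype I] (A : RAct H I)

/-- the weight of the stabiliser of `i₀` built from representatives. -/
noncomputable def stabWeight (w : X → ℝ≥0∞) (g : I → H) : X → ℝ≥0∞ :=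
  fun u => ∑ i, w ((ρ (g i))⁻¹ • u)

theorem measurable_stabWeight (hw : Measurable w) (g : I → H) :
    Measurable (stabWeight ρ w g) :=
  Finset.measurable_sum _ fun i _ => hw.comp (measurable_const_smul _)

theorem stabWeight_ne_top (htop : ∀ z, w z ≠ ∞) (g : I → H) (u : X) :
    stabWeight ρ w g u ≠ ∞ :=
  ENNReal.sum_ne_top.mpr fun i _ => htop _

theorem lintegral_stabWeight (hw : Measurable w) (g : I → H) :
    ∫⁻ u, stabWeight ρ w g u ∂μ = Fintype.card I * ∫⁻ z, w z ∂μ := by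
  unfold stabWeight
  have hmeas : ∀ i ∈ (Finset.univ : Finset I), Measurable fun u => w ((ρ (g i))⁻¹ • u) :=
    fun i _ => hw.comp (measurable_const_smul _)
  rw [lintegral_finset_sum _ hmeas]
  have : ∀ i ∈ (Finset.univ : Finset I), ∫⁻ u, w ((ρ (g i))⁻¹ • u) ∂μ = ∫⁻ z, w z ∂μ :=
    fun i _ => (measurePreserving_smul (ρ (g i))⁻¹ μ).lintegral_comp hw
  rw [Finset.sum_congr rfl this, Finset.sum_const, Finset.card_univ, nsmul_eq_mul]

theorem lintegral_stabWeight_ne_top (hw : Measurable w) (hfin : ∫⁻ z, w z ∂μ ≠ ∞)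
    (g : I → H) : ∫⁻ u, stabWeight ρ w g u ∂μ ≠ ∞ := by
  rw [lintegral_stabWeight ρ hw g]
  exact ENNReal.mul_ne_top (ENNReal.natCast_ne_top _) hfin

/-- the stabiliser weight is an FD-weight for the stabiliser. -/
theorem isFDWeight_stabWeight (hw : IsFDWeight μ ρ w m) (i₀ : I) (g : I → H)
    (hg : ∀ i, A.perm (g i) i₀ = i) :
    IsFDWeight μ (fun σ : A.stab i₀ => ρ σ) (stabWeight ρ w g) m := by
  have := hw.subgroup ρ (A.stab i₀) g (A.decomp i₀ g hg) (A.decomp_apply i₀ g hg)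
  have h2 : (fun u => ∑' i, w ((ρ (g i))⁻¹ • u)) = stabWeight ρ w g := by
    funext u
    rw [tsum_fintype]
    rfl
  rwa [h2] at this

/-- unfolding an equivariant family to the stabiliser of a base point. -/
theorem sum_integral_eq_stab (hw : Measurable w) (hfin : ∫⁻ z, w z ∂μ ≠ ∞)
    (htop : ∀ z, w z ≠ ∞) (i₀ : I) (g : I → H) (hg : ∀ i, A.perm (g i) i₀ = i)
    (Ψ : I → X → ℂ) (hΨ : ∀ x i z, Ψ i (ρ x • z) = Ψ (A.perm x i) z)
    (hΨm : Measurable (Ψ i₀)) {C : ℝ} (hΨb : ∀ z, ‖Ψ i₀ z‖ ≤ C) :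
    ∑ i, ∫ z, Ψ i z * ((w z).toReal : ℂ) ∂μ
      = ∫ u, Ψ i₀ u * ((stabWeight ρ w g u).toReal : ℂ) ∂μ := by
  show _ = ∫ u, Ψ i₀ u * ((∑ i, w ((ρ (g i))⁻¹ • u)).toReal : ℂ) ∂μ
  rw [← sum_integral_family (fun i => ρ (g i)) hw hfin htop hΨm hΨb]
  refine Finset.sum_congr rfl fun i _ => ?_
  refine integral_congr_ae (Filter.Eventually.of_forall fun z => ?_)
  simp only
  rw [hΨ, hg]

end Unfold

/-- **Abstract adjointness.** -/
theorem adjoint_abstract {H : Type*} [Group H] [Countable H] (ρ : H →* G)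
    {w : X → ℝ≥0∞} {m : ℝ≥0∞} (hw : IsFDWeight μ ρ w m) (hfin : ∫⁻ z, w z ∂μ ≠ ∞)
    (htop : ∀ z, w z ≠ ∞) (hm0 : m ≠ 0) (hmtop : m ≠ ∞)
    {I : Type*} [Fintype I] (A : RAct H I) (i₀ j₀ : I) (g : I → H)
    (hg : ∀ i, A.perm (g i) i₀ = i)
    (Ψ Ψ' : I → X → ℂ) (hΨm : Measurable (Ψ i₀)) (hΨ'm : Measurable (Ψ' j₀)) {C : ℝ}
    (hΨb : ∀ z, ‖Ψ i₀ z‖ ≤ C) (hΨ'b : ∀ z, ‖Ψ' j₀ z‖ ≤ C)
    (hΨ : ∀ x i z, Ψ i (ρ x • z) = Ψ (A.perm x i) z)
    (hΨ' : ∀ x i z, Ψ' i (ρ x • z) = Ψ' (A.perm x i) z)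
    (β : G) (c : A.stab i₀ ≃ A.stab j₀) (hc : ∀ σ : A.stab i₀, ρ (c σ : H) = β * ρ σ * β⁻¹)
    (hβ : ∀ z, Ψ i₀ z = Ψ' j₀ (β • z)) :
    ∑ i, ∫ z, Ψ i z * ((w z).toReal : ℂ) ∂μ = ∑ i, ∫ z, Ψ' i z * ((w z).toReal : ℂ) ∂μ := by
  -- representatives for the second base point
  set h : I → H := fun i => (g j₀)⁻¹ * g i with hh
  have hh' : ∀ i, A.perm (h i) j₀ = i := by
    intro i
    have : A.perm (g j₀)⁻¹ j₀ = i₀ := by
      have h0 := A.perm_inv_perm (g j₀) i₀
      rwa [hg] at h0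
    rw [hh, A.perm_mul, this, hg]
  rw [sum_integral_eq_stab ρ A hw.measurable hfin htop i₀ g hg Ψ hΨ hΨm hΨb,
    sum_integral_eq_stab ρ A hw.measurable hfin htop j₀ h hh' Ψ' hΨ' hΨ'm hΨ'b]
  set W := stabWeight ρ w g with hW
  set W' := stabWeight ρ w h with hW'
  have hWm : Measurable W := measurable_stabWeight ρ hw.measurable g
  -- change of variables by `β`
  have h1 : ∫ u, Ψ i₀ u * ((W u).toReal : ℂ) ∂μ
      = ∫ u, Ψ' j₀ u * ((W (β⁻¹ • u)).toReal : ℂ) ∂μ := by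
    rw [← integral_smul_eq_self (μ := μ) (fun u => Ψ' j₀ u * ((W (β⁻¹ • u)).toReal : ℂ))
      (g := β)]
    refine integral_congr_ae (Filter.Eventually.of_forall fun z => ?_)
    simp only [inv_smul_smul, hβ]
  rw [h1]
  -- the two FD-weights of the stabiliser of `j₀`
  have hF1 : IsFDWeight μ (fun σ : A.stab j₀ => ρ σ) (fun u => W (β⁻¹ • u)) m := by
    have h0 := (isFDWeight_stabWeight ρ A hw i₀ g hg).conj β
    refine h0.reindex' c.symm fun σ' => ?_
    have := hc (c.symm σ')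
    rw [Equiv.apply_symm_apply] at this
    exact this
  have hF2 : IsFDWeight μ (fun σ : A.stab j₀ => ρ σ) W' m :=
    isFDWeight_stabWeight ρ A hw j₀ h hh'
  have hfin1 : ∫⁻ u, W (β⁻¹ • u) ∂μ ≠ ∞ := by
    rw [(measurePreserving_smul β⁻¹ μ).lintegral_comp hWm]
    exact lintegral_stabWeight_ne_top ρ hw.measurable hfin g
  have hfin2 : ∫⁻ u, W' u ∂μ ≠ ∞ := lintegral_stabWeight_ne_top ρ hw.measurable hfin h
  have hU := IsFDWeight.mul_integral_eq (ρ.comp (A.stab j₀).subtype) hF1 hF2 hfin1 hfin2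
    hΨ'm hΨ'b (fun σ z => by
      have := hΨ' (σ : H) j₀ z
      rw [A.mem_stab.mp σ.2] at this
      exact this)
  have hm : (m.toReal : ℂ) ≠ 0 := by
    rw [Ne, Complex.ofReal_eq_zero]
    exact (ENNReal.toReal_pos hm0 hmtop).ne'
  exact mul_left_cancel₀ hm hU

end Fermat.Agent.ES.PET.FDAdjoint21
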