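/-
S31 / chapter PET, leaf (P1) (helper5): the partition function `w0 = ½ · 1_{𝒟ᵒ}` for the action of
`SL(2, ℤ)` on `(ℍ, volume)` (Mathlib's hyperbolic measure):

* `volume (𝒟 \ 𝒟ᵒ) = 0`, `volume 𝒟 < ⊤`;
* for almost every `z`, `∑' g : SL(2, ℤ), w0 (g • z) = 1`.

Mathlib only.
-/
import Mathlib

set_option autoImplicit false

open MeasureTheory UpperHalfPlane ModularGroup Set
open scoped MatrixGroups ENNReal Modular Topology

noncomputable section

namespace Fermat.Agent.ES.PET.PartitionSL5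

/-! ### The action of `SL(2, ℤ)` on `ℍ`: countability, measurability, invariance of the measure -/

theorem countable_SL : Countable SL(2, ℤ) := by
  have : Countable (Fin 2 → Fin 2 → ℤ) := inferInstance
  have h : Function.Injective (fun g : SL(2, ℤ) => (fun i j => g.1 i j : Fin 2 → Fin 2 → ℤ)) := by
    intro g g' hgg'
    apply Subtype.ext
    ext i j
    exact congrFun (congrFun hgg' i) j
  exact h.countable

theorem continuous_smul_SL (g : SL(2, ℤ)) : Continuous (fun z : ℍ => g • z) :=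
  continuous_const_smul (g : GL (Fin 2) ℝ)

theorem measurable_smul_SL (g : SL(2, ℤ)) : Measurable (fun z : ℍ => g • z) :=
  (continuous_smul_SL g).measurable

theorem measurePreserving_smul_SL (g : SL(2, ℤ)) :
    MeasurePreserving (fun z : ℍ => g • z) volume volume :=
  measurePreserving_smul (g : GL (Fin 2) ℝ) volume

/-! ### The boundary of the fundamental domain is a null set -/

theorem measurableSet_fd : MeasurableSet (𝒟 : Set ℍ) := isClosed_fd.measurableSet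

theorem measurableSet_fdo : MeasurableSet (𝒟ᵒ : Set ℍ) := isOpen_fdo.measurableSet

theorem volume_re_eq (c : ℝ) : volume {z : ℂ | z.re = c} = 0 := by
  have hp := Complex.volume_preserving_equiv_real_prod
  have h1 : {z : ℂ | z.re = c} = Complex.measurableEquivRealProd ⁻¹' (({c} : Set ℝ) ×ˢ univ) := by
    ext z
    simp [Complex.measurableEquivRealProd_apply]
  rw [h1, hp.measure_preimage ((measurableSet_singleton c).prod MeasurableSet.univ).nullMeasurableSet]
  rw [Measure.volume_eq_prod, Measure.prod_prod]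
  simp

theorem volume_norm_eq_one : volume {z : ℂ | ‖z‖ = 1} = 0 := by
  have : {z : ℂ | ‖z‖ = 1} = Metric.sphere (0 : ℂ) 1 := by
    ext z
    simp
  rw [this]
  exact Measure.addHaar_sphere volume 0 1

theorem volume_eq_zero_of_image {s : Set ℍ} (hs : volume ((↑) '' s : Set ℂ) = 0) :
    volume s = 0 := by
  rw [volume_eq_lintegral]
  exact setLIntegral_measure_zero _ _ hs

theorem image_fd_diff_fdo_subset :
    ((↑) '' (𝒟 \ 𝒟ᵒ) : Set ℂ) ⊆
      {z : ℂ | ‖z‖ = 1} ∪ ({z : ℂ | z.re = 1 / 2} ∪ {z : ℂ | z.re = -1 / 2}) := by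
  rintro _ ⟨z, ⟨hz, hz'⟩, rfl⟩
  have h1 : 1 ≤ Complex.normSq (z : ℂ) := hz.1
  have h2 : |z.re| ≤ 1 / 2 := hz.2
  by_cases h3 : 1 < Complex.normSq (z : ℂ)
  · have h4 : ¬ |z.re| < 1 / 2 := fun h => hz' ⟨h3, h⟩
    have h5 : |z.re| = 1 / 2 := le_antisymm h2 (not_lt.mp h4)
    right
    rcases abs_cases z.re with ⟨h6, _⟩ | ⟨h6, _⟩
    · left
      show (z : ℂ).re = 1 / 2
      rw [UpperHalfPlane.coe_re]
      linarith
    · right
      show (z : ℂ).re = -1 / 2
      rw [UpperHalfPlane.coe_re]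
      linarith
  · left
    have h4 : Complex.normSq (z : ℂ) = 1 := le_antisymm (not_lt.mp h3) h1
    show ‖(z : ℂ)‖ = 1
    rw [← Complex.sq_norm] at h4
    have h5 : (0 : ℝ) ≤ ‖(z : ℂ)‖ := norm_nonneg _
    nlinarith

theorem volume_fd_diff_fdo : volume (𝒟 \ 𝒟ᵒ : Set ℍ) = 0 := by
  apply volume_eq_zero_of_image
  refine measure_mono_null image_fd_diff_fdo_subset ?_
  refine measure_union_null volume_norm_eq_one (measure_union_null (volume_re_eq _) (volume_re_eq _))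

/-! ### The fundamental domain has finite volume -/

theorem image_fd_subset :
    ((↑) '' (𝒟 : Set ℍ) : Set ℂ) ⊆
      Complex.measurableEquivRealProd ⁻¹' (Icc (-1 / 2 : ℝ) (1 / 2) ×ˢ Ioi (1 / 2 : ℝ)) := by
  rintro _ ⟨z, hz, rfl⟩
  have h2 : |z.re| ≤ 1 / 2 := hz.2
  have h3 := three_le_four_mul_im_sq_of_mem_fd hz
  have h4 := z.im_pos
  rw [mem_preimage, Complex.measurableEquivRealProd_apply, mem_prod, mem_Icc, mem_Ioi]
  rw [abs_le] at h2
  refine ⟨⟨?_, ?_⟩, ?_⟩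
  · show -1 / 2 ≤ (z : ℂ).re
    rw [UpperHalfPlane.coe_re]; linarith [h2.1]
  · show (z : ℂ).re ≤ 1 / 2
    rw [UpperHalfPlane.coe_re]; exact h2.2
  · show 1 / 2 < (z : ℂ).im
    rw [UpperHalfPlane.coe_im]
    nlinarith

theorem lintegral_Ioi_lt_top :
    ∫⁻ y in Ioi (1 / 2 : ℝ), (((1 / ‖y‖₊) ^ 2 : NNReal) : ℝ≥0∞) < ⊤ := by
  have hint : IntegrableOn (fun t : ℝ => t ^ (-2 : ℝ)) (Ioi (1 / 2 : ℝ)) volume :=
    integrableOn_Ioi_rpow_of_lt (by norm_num) (by norm_num)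
  have h1 : ∫⁻ y in Ioi (1 / 2 : ℝ), (((1 / ‖y‖₊) ^ 2 : NNReal) : ℝ≥0∞) =
      ∫⁻ y in Ioi (1 / 2 : ℝ), ENNReal.ofReal (y ^ (-2 : ℝ)) := by
    refine setLIntegral_congr_fun measurableSet_Ioi fun y hy => ?_
    have hy0 : (0 : ℝ) < y := lt_trans (by norm_num) (mem_Ioi.mp hy)
    have h2 : y ^ (-2 : ℝ) = (((1 / ‖y‖₊) ^ 2 : NNReal) : ℝ) := by
      rw [Real.rpow_neg hy0.le]
      push_cast
      rw [Real.norm_of_nonneg hy0.le, one_div, inv_pow]
      norm_cast
    rw [h2, ENNReal.ofReal_coe_nnreal]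
  rw [h1]
  exact hint.lintegral_lt_top

theorem volume_fd_lt_top : volume (𝒟 : Set ℍ) < ⊤ := by
  rw [volume_eq_lintegral]
  refine lt_of_le_of_lt (lintegral_mono_set image_fd_subset) ?_
  have hp := Complex.volume_preserving_equiv_real_prod
  have h1 := hp.setLIntegral_comp_preimage_emb Complex.measurableEquivRealProd.measurableEmbedding
    (fun p : ℝ × ℝ => (((1 / ‖p.2‖₊) ^ 2 : NNReal) : ℝ≥0∞))
    (Icc (-1 / 2 : ℝ) (1 / 2) ×ˢ Ioi (1 / 2 : ℝ))
  simp only [Complex.measurableEquivRealProd_apply] at h1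
  rw [h1, Measure.volume_eq_prod, ← Measure.prod_restrict, lintegral_prod]
  · simp only
    rw [lintegral_const, Measure.restrict_apply MeasurableSet.univ, univ_inter, Real.volume_Icc]
    refine ENNReal.mul_lt_top lintegral_Ioi_lt_top ?_
    exact ENNReal.ofReal_lt_top
  · refine Measurable.aemeasurable ?_
    fun_prop

theorem volume_fdo_lt_top : volume (𝒟ᵒ : Set ℍ) < ⊤ :=
  lt_of_le_of_lt (measure_mono fdo_subset_fd) volume_fd_lt_top

/-! ### The partition function -/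

/-- The partition function `½ · 1_{𝒟ᵒ}` (`ℝ≥0∞`-valued). -/
def w0 : ℍ → ℝ≥0∞ := (𝒟ᵒ : Set ℍ).indicator (fun _ => 2⁻¹)

/-- The partition function `½ · 1_{𝒟ᵒ}` (real-valued). -/
def w0r : ℍ → ℝ := (𝒟ᵒ : Set ℍ).indicator (fun _ => 2⁻¹)

theorem measurable_w0 : Measurable w0 := measurable_const.indicator measurableSet_fdo

theorem measurable_w0r : Measurable w0r := measurable_const.indicator measurableSet_fdo

theorem w0r_nonneg (z : ℍ) : 0 ≤ w0r z := indicator_nonneg (fun _ _ => by norm_num) z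

theorem w0r_le (z : ℍ) : w0r z ≤ 1 / 2 := by
  unfold w0r
  by_cases hz : z ∈ (𝒟ᵒ : Set ℍ)
  · rw [indicator_of_mem hz]; norm_num
  · rw [indicator_of_notMem hz]; norm_num

theorem w0_eq_ofReal (z : ℍ) : w0 z = ENNReal.ofReal (w0r z) := by
  unfold w0 w0r
  by_cases hz : z ∈ (𝒟ᵒ : Set ℍ)
  · rw [indicator_of_mem hz, indicator_of_mem hz, ENNReal.ofReal_inv_of_pos (by norm_num)]
    simp
  · rw [indicator_of_notMem hz, indicator_of_notMem hz, ENNReal.ofReal_zero]

theorem integrable_w0r : Integrable w0r (volume : Measure ℍ) := by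
  unfold w0r
  rw [integrable_indicator_iff measurableSet_fdo]
  exact integrableOn_const (hs := volume_fdo_lt_top.ne)

theorem lintegral_w0_lt_top : ∫⁻ z, w0 z ∂(volume : Measure ℍ) < ⊤ := by
  unfold w0
  rw [lintegral_indicator measurableSet_fdo, setLIntegral_const]
  exact ENNReal.mul_lt_top (by simp) volume_fdo_lt_top

/-- The exceptional null set: the `SL(2, ℤ)`-orbit of the boundary of `𝒟`. -/
def excSet : Set ℍ := ⋃ g : SL(2, ℤ), (fun z : ℍ => g • z) ⁻¹' (𝒟 \ 𝒟ᵒ)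

theorem volume_excSet : volume excSet = 0 := by
  have := countable_SL
  refine measure_iUnion_null fun g => ?_
  rw [(measurePreserving_smul_SL g).measure_preimage
    (measurableSet_fd.diff measurableSet_fdo).nullMeasurableSet]
  exact volume_fd_diff_fdo

theorem neg_ne_self (g : SL(2, ℤ)) : -g ≠ g := by
  intro h
  have h00 : g 0 0 = 0 := by
    have := congrArg (fun x : SL(2, ℤ) => x 0 0) h
    simp only [Matrix.SpecialLinearGroup.coe_neg, Matrix.neg_apply] at this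
    omega
  have h01 : g 0 1 = 0 := by
    have := congrArg (fun x : SL(2, ℤ) => x 0 1) h
    simp only [Matrix.SpecialLinearGroup.coe_neg, Matrix.neg_apply] at this
    omega
  have hdet := g.det_coe
  rw [Matrix.det_fin_two, h00, h01] at hdet
  simp at hdet

theorem exists_fdo_iff {z : ℍ} (hz : z ∉ excSet) :
    ∃ g₀ : SL(2, ℤ), ∀ g : SL(2, ℤ), g • z ∈ (𝒟ᵒ : Set ℍ) ↔ g = g₀ ∨ g = -g₀ := by
  obtain ⟨g₀, hg₀⟩ := exists_smul_mem_fd z
  have hg₀' : g₀ • z ∈ (𝒟ᵒ : Set ℍ) := by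
    by_contra h
    exact hz (mem_iUnion.mpr ⟨g₀, ⟨hg₀, h⟩⟩)
  refine ⟨g₀, fun g => ⟨fun hg => ?_, ?_⟩⟩
  · have h1 : (g * g₀⁻¹) • (g₀ • z) ∈ (𝒟ᵒ : Set ℍ) := by
      rw [← mul_smul, inv_mul_cancel_right]
      exact hg
    rcases eq_one_or_neg_one_of_mem_fdo_mem_fdo hg₀' h1 with h | h
    · left
      exact mul_inv_eq_one.mp h
    · right
      have h2 := congrArg (· * g₀) h
      simpa using h2
  · rintro (rfl | rfl)
    · exact hg₀'
    · rw [SL_neg_smul]
      exact hg₀'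

theorem tsum_w0 {z : ℍ} (hz : z ∉ excSet) : ∑' g : SL(2, ℤ), w0 (g • z) = 1 := by
  obtain ⟨g₀, hg₀⟩ := exists_fdo_iff hz
  have hne : g₀ ≠ -g₀ := (neg_ne_self g₀).symm
  rw [tsum_eq_sum (s := {g₀, -g₀})]
  · rw [Finset.sum_pair hne]
    have h1 : w0 (g₀ • z) = 2⁻¹ := indicator_of_mem ((hg₀ g₀).mpr (Or.inl rfl)) _
    have h2 : w0 ((-g₀) • z) = 2⁻¹ := indicator_of_mem ((hg₀ (-g₀)).mpr (Or.inr rfl)) _
    rw [h1, h2, ENNReal.inv_two_add_inv_two]
  · intro g hg
    apply indicator_of_notMem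
    intro hmem
    rcases (hg₀ g).mp hmem with rfl | rfl <;> simp at hg

theorem hasSum_w0r {z : ℍ} (hz : z ∉ excSet) : HasSum (fun g : SL(2, ℤ) => w0r (g • z)) 1 := by
  obtain ⟨g₀, hg₀⟩ := exists_fdo_iff hz
  have hne : g₀ ≠ -g₀ := (neg_ne_self g₀).symm
  have h0 : ∀ g ∉ ({g₀, -g₀} : Finset SL(2, ℤ)), w0r (g • z) = 0 := by
    intro g hg
    apply indicator_of_notMem
    intro hmem
    rcases (hg₀ g).mp hmem with rfl | rfl <;> simp at hg
  have h : HasSum (fun g : SL(2, ℤ) => w0r (g • z)) (∑ g ∈ ({g₀, -g₀} : Finset SL(2, ℤ)), w0r (g • z)) :=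
    hasSum_sum_of_ne_finset_zero h0
  rw [Finset.sum_pair hne] at h
  have h1 : w0r (g₀ • z) = 2⁻¹ := indicator_of_mem ((hg₀ g₀).mpr (Or.inl rfl)) _
  have h2 : w0r ((-g₀) • z) = 2⁻¹ := indicator_of_mem ((hg₀ (-g₀)).mpr (Or.inr rfl)) _
  rw [h1, h2] at h
  convert h using 1
  norm_num

theorem ae_notMem_excSet : ∀ᵐ z ∂(volume : Measure ℍ), z ∉ excSet :=
  measure_eq_zero_iff_ae_notMem.mp volume_excSet

/-- **(P1)**: `w0` is a partition function for `SL(2, ℤ)` acting on `(ℍ, volume)`. -/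
theorem ae_tsum_w0 : ∀ᵐ z ∂(volume : Measure ℍ), ∑' g : SL(2, ℤ), w0 (g • z) = 1 := by
  filter_upwards [ae_notMem_excSet] with z hz using tsum_w0 hz

/-- **(P1)**, real-valued form. -/
theorem ae_hasSum_w0r :
    ∀ᵐ z ∂(volume : Measure ℍ), HasSum (fun g : SL(2, ℤ) => w0r (g • z)) 1 := by
  filter_upwards [ae_notMem_excSet] with z hz using hasSum_w0r hz

end Fermat.Agent.ES.PET.PartitionSL5
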