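/-
Program S31 / chapter PET (helper12): the measure-theoretic instances for the action of
`SL(2, ℤ)` (and hence of all its subgroups, via Mathlib's `Subgroup.instMeasurableConstSMul` and
`Subgroup.smulInvariantMeasure`) on `(ℍ, volume)`, which Mathlib only states for `GL (Fin 2) ℝ`.
Mathlib only.
-/
import Mathlib

set_option autoImplicit false

open UpperHalfPlane MeasureTheory Matrix.SpecialLinearGroup
open scoped MatrixGroups

noncomputable section

namespace Fermat.Agent.ES.PET.SLMeasure12

/-- `SL(2, ℤ)` is countable. -/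
instance countable_SL2Z : Countable SL(2, ℤ) :=
  haveI : Countable (Matrix (Fin 2) (Fin 2) ℤ) := inferInstanceAs (Countable (Fin 2 → Fin 2 → ℤ))
  Subtype.countable

theorem sl_smul_eq (g : SL(2, ℤ)) (z : ℍ) : g • z = (mapGL ℝ g : GL (Fin 2) ℝ) • z := rfl

/-- `SL(2, ℤ)` acts measurably on `ℍ`. -/
instance measurableConstSMul_SL2Z : MeasurableConstSMul SL(2, ℤ) ℍ where
  measurable_const_smul g := by
    have h : (fun z : ℍ => g • z) = fun z : ℍ => (mapGL ℝ g : GL (Fin 2) ℝ) • z := rfl
    show Measurable fun z : ℍ => g • z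
    rw [h]
    exact measurable_const_smul _

/-- The hyperbolic measure is `SL(2, ℤ)`-invariant. -/
instance smulInvariantMeasure_SL2Z : SMulInvariantMeasure SL(2, ℤ) ℍ volume where
  measure_preimage_smul g s hs := by
    have h : (fun z : ℍ => g • z) = fun z : ℍ => (mapGL ℝ g : GL (Fin 2) ℝ) • z := rfl
    rw [h]
    exact SMulInvariantMeasure.measure_preimage_smul (mapGL ℝ g : GL (Fin 2) ℝ) hs

example (N : ℕ) : MeasurableConstSMul ↥(CongruenceSubgroup.Gamma0 N) ℍ := inferInstance
example (N : ℕ) : SMulInvariantMeasure ↥(CongruenceSubgroup.Gamma0 N) ℍ volume := inferInstance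
example (N : ℕ) : Countable ↥(CongruenceSubgroup.Gamma0 N) := inferInstance

end Fermat.Agent.ES.PET.SLMeasure12
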