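/-
Program S31 / chapter PET (helper12): **partition functions and unfolding**, generic measure theory.

`G` a countable group acting measurably and measure-preservingly on a measure space `(X, μ)`.
A *partition function* is a measurable `w : X → ℝ≥0∞` with `∑_g w (g • x) = 1` for a.e. `x`
(a smooth substitute for the indicator of a fundamental domain; works for non-faithful actions).
* (P2) `∫ w φ` does not depend on the partition function `w` for `G`-invariant `φ`;
* (P3) restriction to a finite-index subgroup;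
* (P4) transport along a measure-preserving bijection intertwining two actions.
Mathlib only.
-/
import Mathlib

set_option autoImplicit false
set_option linter.unusedSectionVars false

open MeasureTheory ENNReal
open scoped ENNReal

noncomputable section

namespace Fermat.Agent.ES.PET.Unfold12

variable {G X : Type*} [Group G] [MeasurableSpace X] [MulAction G X]

/-- `w` is a partition function for the action of `G` on `(X, μ)`. -/
def IsPartition (G : Type*) [Group G] [MulAction G X] (μ : Measure X) (w : X → ℝ≥0∞) : Prop :=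
  Measurable w ∧ ∀ᵐ x ∂μ, ∑' g : G, w (g • x) = 1

section Unfold

variable [Countable G] [MeasurableConstSMul G X] {μ : Measure X} [SMulInvariantMeasure G X μ]

omit [Countable G] [SMulInvariantMeasure G X μ] in
theorem measurable_comp_smul {f : X → ℝ≥0∞} (hf : Measurable f) (g : G) :
    Measurable fun x => f (g • x) :=
  hf.comp (measurable_const_smul g)

omit [Countable G] in
/-- change of variables `x ↦ g • x`. -/
theorem lintegral_comp_smul {f : X → ℝ≥0∞} (hf : Measurable f) (g : G) :
    ∫⁻ x, f (g • x) ∂μ = ∫⁻ x, f x ∂μ :=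
  (measurePreserving_smul g μ).lintegral_comp hf

omit [Countable G] [MeasurableConstSMul G X] [SMulInvariantMeasure G X μ] in
/-- the sum over the inverses. -/
theorem tsum_inv_smul (w : X → ℝ≥0∞) (x : X) :
    ∑' g : G, w (g⁻¹ • x) = ∑' g : G, w (g • x) :=
  (Equiv.inv G).tsum_eq (fun g => w (g • x))

/-- **(P2) Unfolding.** For a `G`-invariant `φ ≥ 0`, `∫ w φ` is independent of the partition
function `w`. -/
theorem lintegral_mul_eq_of_isPartition {w w' φ : X → ℝ≥0∞} (hw : IsPartition G μ w)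
    (hw' : IsPartition G μ w') (hφ : Measurable φ) (hinv : ∀ (g : G) (x : X), φ (g • x) = φ x) :
    ∫⁻ x, w x * φ x ∂μ = ∫⁻ x, w' x * φ x ∂μ := by
  obtain ⟨hwm, hw1⟩ := hw
  obtain ⟨hwm', hw1'⟩ := hw'
  -- the double sum
  have key : ∀ {u v : X → ℝ≥0∞}, Measurable u → Measurable v →
      (∀ᵐ x ∂μ, ∑' g : G, v (g • x) = 1) →
      ∫⁻ x, u x * φ x ∂μ = ∑' g : G, ∫⁻ x, u x * φ x * v (g • x) ∂μ := by
    intro u v hu hv hv1
    have hmeas : ∀ g : G, AEMeasurable (fun x => u x * φ x * v (g • x)) μ := fun g =>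
      ((hu.mul hφ).mul (measurable_comp_smul hv g)).aemeasurable
    rw [← lintegral_tsum hmeas]
    refine lintegral_congr_ae ?_
    filter_upwards [hv1] with x hx
    rw [ENNReal.tsum_mul_left, hx, mul_one]
  rw [key hwm hwm' hw1', key hwm' hwm hw1]
  -- change variables in each term and reindex by `g ↦ g⁻¹`
  have hterm : ∀ g : G, ∫⁻ x, w x * φ x * w' (g • x) ∂μ
      = ∫⁻ x, w' x * φ x * w (g⁻¹ • x) ∂μ := by
    intro g
    have hF : Measurable fun x => w x * φ x * w' (g • x) :=
      (hwm.mul hφ).mul (measurable_comp_smul hwm' g)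
    rw [← lintegral_comp_smul hF g⁻¹]
    refine lintegral_congr fun x => ?_
    rw [hinv, smul_inv_smul]
    ring
  rw [tsum_congr hterm]
  exact (Equiv.inv G).tsum_eq (fun g => ∫⁻ x, w' x * φ x * w (g • x) ∂μ)

/-! ### Complex-valued bounded integrands -/

/-- The complex weight attached to a partition function. -/
def wc (w : X → ℝ≥0∞) (x : X) : ℂ := ((w x).toReal : ℂ)

omit [Countable G] [MeasurableConstSMul G X] [SMulInvariantMeasure G X μ] in
theorem measurable_wc {w : X → ℝ≥0∞} (hw : Measurable w) : Measurable (wc w) :=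
  Complex.measurable_ofReal.comp hw.ennreal_toReal

omit [Countable G] [MeasurableConstSMul G X] [SMulInvariantMeasure G X μ] in
theorem enorm_wc (w : X → ℝ≥0∞) (x : X) : ‖wc w x‖ₑ ≤ w x := by
  unfold wc
  rw [← ofReal_norm, Complex.norm_real, Real.norm_eq_abs,
    abs_of_nonneg ENNReal.toReal_nonneg]
  exact ENNReal.ofReal_toReal_le

omit [MeasurableConstSMul G X] [SMulInvariantMeasure G X μ] in
/-- A partition function is `≤ 1` a.e. and its complex weights sum to `1` a.e. -/
theorem IsPartition.tsum_wc {w : X → ℝ≥0∞} (hw : IsPartition G μ w) :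
    ∀ᵐ x ∂μ, ∑' g : G, wc w (g • x) = 1 := by
  filter_upwards [hw.2] with x hx
  have hfin : ∀ g : G, w (g • x) ≠ ∞ := by
    intro g
    have h1 : w (g • x) ≤ ∑' g : G, w (g • x) := ENNReal.le_tsum g
    rw [hx] at h1
    exact ne_top_of_le_ne_top ENNReal.one_ne_top h1
  have h2 := ENNReal.tsum_toReal_eq hfin
  rw [hx, ENNReal.toReal_one] at h2
  unfold wc
  rw [← Complex.ofReal_tsum, ← h2, Complex.ofReal_one]

/-- The integral of an invariant function against a partition function. -/
def Ipart (μ : Measure X) (w : X → ℝ≥0∞) (φ : X → ℂ) : ℂ := ∫ x, wc w x * φ x ∂μ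

/-- the Tonelli step -/
theorem ipart_eq_tsum {u v : X → ℝ≥0∞} {φ : X → ℂ} (hu : Measurable u) (hufin : ∫⁻ x, u x ∂μ ≠ ∞)
    (hv : IsPartition G μ v) (hφ : Measurable φ) {C : ℝ} (hC : ∀ x, ‖φ x‖ ≤ C) :
    Ipart μ u φ = ∑' g : G, ∫ x, wc u x * φ x * wc v (g • x) ∂μ := by
  have hmeas : ∀ g : G, AEStronglyMeasurable (fun x => wc u x * φ x * wc v (g • x)) μ :=
    fun g => (((measurable_wc hu).mul hφ).mul
      ((measurable_wc hv.1).comp (measurable_const_smul g))).aestronglyMeasurable
  have hbound : ∑' g : G, ∫⁻ x, ‖wc u x * φ x * wc v (g • x)‖ₑ ∂μ ≠ ∞ := by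
    have h1 : ∀ g : G, ∫⁻ x, ‖wc u x * φ x * wc v (g • x)‖ₑ ∂μ
        ≤ ∫⁻ x, ENNReal.ofReal C * (u x * v (g • x)) ∂μ := by
      intro g
      refine lintegral_mono fun x => ?_
      rw [enorm_mul, enorm_mul]
      have h3 : ‖φ x‖ₑ ≤ ENNReal.ofReal C := by
        rw [← ofReal_norm]
        exact ENNReal.ofReal_le_ofReal (hC x)
      calc ‖wc u x‖ₑ * ‖φ x‖ₑ * ‖wc v (g • x)‖ₑ
          ≤ u x * ENNReal.ofReal C * v (g • x) :=
            mul_le_mul' (mul_le_mul' (enorm_wc u x) h3) (enorm_wc v (g • x))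
        _ = ENNReal.ofReal C * (u x * v (g • x)) := by ring
    have hm2 : ∀ g : G, AEMeasurable (fun x => ENNReal.ofReal C * (u x * v (g • x))) μ :=
      fun g => ((hu.mul (measurable_comp_smul hv.1 g)).const_mul _).aemeasurable
    have h2 : ∑' g : G, ∫⁻ x, ENNReal.ofReal C * (u x * v (g • x)) ∂μ
        = ENNReal.ofReal C * ∫⁻ x, u x ∂μ := by
      rw [← lintegral_tsum hm2, ← lintegral_const_mul _ hu]
      refine lintegral_congr_ae ?_
      filter_upwards [hv.2] with x hx
      rw [ENNReal.tsum_mul_left, ENNReal.tsum_mul_left, hx, mul_one]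
    refine ne_top_of_le_ne_top ?_ (ENNReal.tsum_le_tsum h1)
    rw [h2]
    exact ENNReal.mul_ne_top ENNReal.ofReal_ne_top hufin
  rw [← integral_tsum hmeas hbound]
  unfold Ipart
  refine integral_congr_ae ?_
  filter_upwards [hv.tsum_wc] with x hx
  rw [tsum_mul_left, hx, mul_one]

/-- **(P2), complex form.** For a bounded measurable `G`-invariant `φ : X → ℂ`, the integral
against a partition function of finite mass does not depend on the partition function. -/
theorem ipart_eq_of_isPartition {w w' : X → ℝ≥0∞} {φ : X → ℂ} (hw : IsPartition G μ w)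
    (hw' : IsPartition G μ w') (hwfin : ∫⁻ x, w x ∂μ ≠ ∞) (hwfin' : ∫⁻ x, w' x ∂μ ≠ ∞)
    (hφ : Measurable φ) (hinv : ∀ (g : G) (x : X), φ (g • x) = φ x) {C : ℝ}
    (hC : ∀ x, ‖φ x‖ ≤ C) : Ipart μ w φ = Ipart μ w' φ := by
  rw [ipart_eq_tsum hw.1 hwfin hw' hφ hC, ipart_eq_tsum hw'.1 hwfin' hw hφ hC]
  have hterm : ∀ g : G, ∫ x, wc w x * φ x * wc w' (g • x) ∂μ
      = ∫ x, wc w' x * φ x * wc w (g⁻¹ • x) ∂μ := by
    intro g
    rw [← integral_smul_eq_self (μ := μ) (fun x => wc w x * φ x * wc w' (g • x)) (g := g⁻¹)]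
    refine integral_congr_ae (Filter.Eventually.of_forall fun x => ?_)
    show wc w (g⁻¹ • x) * φ (g⁻¹ • x) * wc w' (g • g⁻¹ • x) = _
    rw [hinv, smul_inv_smul]
    ring
  rw [tsum_congr hterm]
  exact (Equiv.inv G).tsum_eq (fun g => ∫ x, wc w' x * φ x * wc w (g • x) ∂μ)

end Unfold

/-! ### (P3) restriction of a partition function to a subgroup of finite index -/

section Subgroup

variable (H : Subgroup G)

/-- The bijection `(G ⧸ H) × H ≃ G`, `(q, h) ↦ r q * h`, attached to a section `r` of `G → G ⧸ H`. -/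
def prodEquivOfSection (r : G ⧸ H → G) (hr : ∀ q, ((r q : G) : G ⧸ H) = q) : (G ⧸ H) × H ≃ G where
  toFun x := r x.1 * (x.2 : G)
  invFun g := (((g : G) : G ⧸ H), ⟨(r ((g : G) : G ⧸ H))⁻¹ * g, by
    have h1 : ((r ((g : G) : G ⧸ H) : G) : G ⧸ H) = ((g : G) : G ⧸ H) := hr _
    exact QuotientGroup.eq.mp h1⟩)
  left_inv := by
    rintro ⟨q, h⟩
    have h1 : (((r q * (h : G) : G)) : G ⧸ H) = q := by
      rw [QuotientGroup.mk_mul_of_mem _ h.2, hr]
    apply Prod.ext
    · exact h1
    · apply Subtype.ext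
      show (r ((r q * (h : G) : G) : G ⧸ H))⁻¹ * (r q * (h : G)) = h
      rw [h1, inv_mul_cancel_left]
  right_inv := by
    intro g
    show r ((g : G) : G ⧸ H) * ((r ((g : G) : G ⧸ H))⁻¹ * g) = g
    rw [mul_inv_cancel_left]

/-- The restriction of a partition function `w` for `G` to a subgroup `H` of finite index:
`x ↦ ∑_{q ∈ G/H} w (r q • x)`. -/
def restrictPartition [Fintype (G ⧸ H)] (r : G ⧸ H → G) (w : X → ℝ≥0∞) (x : X) : ℝ≥0∞ :=
  ∑ q : G ⧸ H, w (r q • x)

variable [MeasurableConstSMul G X] {μ : Measure X}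

/-- **(P3), partition half.** -/
theorem IsPartition.restrict [Fintype (G ⧸ H)] (r : G ⧸ H → G)
    (hr : ∀ q, ((r q : G) : G ⧸ H) = q) {w : X → ℝ≥0∞} (hw : IsPartition G μ w) :
    IsPartition H μ (restrictPartition H r w) := by
  refine ⟨?_, ?_⟩
  · unfold restrictPartition
    exact Finset.measurable_sum _ fun q _ => measurable_comp_smul hw.1 (r q)
  · filter_upwards [hw.2] with x hx
    unfold restrictPartition
    have h1 : ∑' h : H, ∑ q : G ⧸ H, w (r q • h • x)
        = ∑' p : (G ⧸ H) × H, w ((r p.1 * (p.2 : G)) • x) := by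
      calc ∑' h : H, ∑ q : G ⧸ H, w (r q • h • x)
          = ∑' h : H, ∑' q : G ⧸ H, w (r q • h • x) := by
            refine tsum_congr fun h => ?_
            rw [tsum_fintype]
        _ = ∑' q : G ⧸ H, ∑' h : H, w (r q • h • x) := ENNReal.tsum_comm
        _ = ∑' q : G ⧸ H, ∑' h : H, w ((r q * (h : G)) • x) := by
            refine tsum_congr fun q => tsum_congr fun h => ?_
            rw [mul_smul]
            rfl
        _ = ∑' p : (G ⧸ H) × H, w ((r p.1 * (p.2 : G)) • x) :=
            (ENNReal.tsum_prod' (f := fun p : (G ⧸ H) × H => w ((r p.1 * (p.2 : G)) • x))).symm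
    rw [h1]
    rw [← hx]
    exact (prodEquivOfSection H r hr).tsum_eq (fun g => w (g • x))

/-- The mass of the restricted partition function. -/
theorem lintegral_restrictPartition [Fintype (G ⧸ H)] [SMulInvariantMeasure G X μ]
    (r : G ⧸ H → G) {w : X → ℝ≥0∞} (hw : Measurable w) :
    ∫⁻ x, restrictPartition H r w x ∂μ = Fintype.card (G ⧸ H) * ∫⁻ x, w x ∂μ := by
  unfold restrictPartition
  rw [lintegral_finsetSum _ fun q _ => measurable_comp_smul hw (r q)]
  simp_rw [lintegral_comp_smul hw]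
  rw [Finset.sum_const, Finset.card_univ, nsmul_eq_mul]

end Subgroup

/-! ### Real-valued form of a partition function -/

section Real

variable {μ : Measure X}

/-- The real-valued form: `0 ≤ w`, `HasSum (w (γ • x)) 1` a.e. -/
theorem IsPartition.hasSum_toReal [Countable G] {w : X → ℝ≥0∞} (hw : IsPartition G μ w) :
    ∀ᵐ x ∂μ, HasSum (fun g : G => (w (g • x)).toReal) 1 := by
  filter_upwards [hw.2] with x hx
  have hfin : ∀ g : G, w (g • x) ≠ ∞ := by
    intro g
    have h1 : w (g • x) ≤ ∑' g : G, w (g • x) := ENNReal.le_tsum g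
    rw [hx] at h1
    exact ne_top_of_le_ne_top ENNReal.one_ne_top h1
  have hsum : Summable fun g : G => (w (g • x)).toReal :=
    ENNReal.summable_toReal (by rw [hx]; exact ENNReal.one_ne_top)
  have h2 := ENNReal.tsum_toReal_eq hfin
  rw [hx, ENNReal.toReal_one] at h2
  rw [h2]
  exact hsum.hasSum

theorem IsPartition.integrable_toReal {w : X → ℝ≥0∞} (hw : Measurable w)
    (hfin : ∫⁻ x, w x ∂μ ≠ ∞) : Integrable (fun x => (w x).toReal) μ :=
  integrable_toReal_of_lintegral_ne_top hw.aemeasurable hfin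

end Real

end Fermat.Agent.ES.PET.Unfold12
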