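/-
S31 / chapter PET (helper5): glue of (P1) `PartitionSL5` with helper12's generic `Unfold12`:
`w0` is a partition function for `SL(2, ℤ)`, and for every finite-index subgroup `Γ ≤ SL(2, ℤ)` the
coset sum `wΓ Γ` is a partition function for `Γ` of finite mass.
-/
import Fermat.Agent.ES.PET.PartitionSL5
import Fermat.Agent.ES.PET.Unfold12
import Fermat.Agent.ES.PET.SLMeasure12

set_option autoImplicit false

open MeasureTheory UpperHalfPlane ModularGroup Set
open scoped MatrixGroups ENNReal Modular Topology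

noncomputable section

namespace Fermat.Agent.ES.PET.PartitionGamma5

open Fermat.Agent.ES.PET.Unfold12 Fermat.Agent.ES.PET.PartitionSL5 Fermat.Agent.ES.PET.SLMeasure12

/-- **(P1)** in helper12's shape. -/
theorem isPartition_w0 : IsPartition SL(2, ℤ) (volume : Measure ℍ) w0 :=
  ⟨measurable_w0, ae_tsum_w0⟩

variable (Γ : Subgroup SL(2, ℤ)) [Γ.FiniteIndex]

/-- The partition function of a finite-index subgroup `Γ ≤ SL(2, ℤ)`:
`z ↦ ∑_{q ∈ SL(2,ℤ)/Γ} w0 (q.out • z)`. -/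
def wΓ : ℍ → ℝ≥0∞ :=
  let _ : Fintype (SL(2, ℤ) ⧸ Γ) := Subgroup.fintypeQuotientOfFiniteIndex
  restrictPartition Γ Quotient.out w0

theorem wΓ_apply (z : ℍ) :
    wΓ Γ z = (haveI : Fintype (SL(2, ℤ) ⧸ Γ) := Subgroup.fintypeQuotientOfFiniteIndex
      ∑ q : SL(2, ℤ) ⧸ Γ, w0 ((Quotient.out q : SL(2, ℤ)) • z)) := rfl

theorem isPartition_wΓ : IsPartition Γ (volume : Measure ℍ) (wΓ Γ) := by
  let _ : Fintype (SL(2, ℤ) ⧸ Γ) := Subgroup.fintypeQuotientOfFiniteIndex
  exact isPartition_w0.restrict Γ Quotient.out (fun q => Quotient.out_eq' q)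

theorem measurable_wΓ : Measurable (wΓ Γ) := (isPartition_wΓ Γ).1

theorem lintegral_wΓ_ne_top : ∫⁻ z, wΓ Γ z ∂(volume : Measure ℍ) ≠ ∞ := by
  let _ : Fintype (SL(2, ℤ) ⧸ Γ) := Subgroup.fintypeQuotientOfFiniteIndex
  have h := lintegral_restrictPartition (μ := (volume : Measure ℍ)) Γ Quotient.out measurable_w0
  show ∫⁻ z, restrictPartition Γ Quotient.out w0 z ∂(volume : Measure ℍ) ≠ ∞
  rw [h]
  exact ENNReal.mul_ne_top (ENNReal.natCast_ne_top _) lintegral_w0_lt_top.ne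

/-- `wΓ ≤ [SL(2,ℤ) : Γ] / 2` pointwise (in particular bounded). -/
theorem wΓ_le (z : ℍ) : wΓ Γ z ≤ Γ.index := by
  let _ : Fintype (SL(2, ℤ) ⧸ Γ) := Subgroup.fintypeQuotientOfFiniteIndex
  show restrictPartition Γ Quotient.out w0 z ≤ Γ.index
  unfold restrictPartition
  calc ∑ q : SL(2, ℤ) ⧸ Γ, w0 ((Quotient.out q : SL(2, ℤ)) • z)
      ≤ ∑ _q : SL(2, ℤ) ⧸ Γ, (1 : ℝ≥0∞) := by
        refine Finset.sum_le_sum fun q _ => ?_
        unfold w0
        by_cases hz : (Quotient.out q : SL(2, ℤ)) • z ∈ (𝒟ᵒ : Set ℍ)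
        · rw [indicator_of_mem hz]
          exact ENNReal.inv_le_one.mpr (by norm_num)
        · rw [indicator_of_notMem hz]
          exact zero_le
    _ = Γ.index := by
        rw [Finset.sum_const, Finset.card_univ, nsmul_eq_mul, mul_one, Subgroup.index_eq_card,
          Nat.card_eq_fintype_card]

/-- real-valued form, a.e. `HasSum`. -/
theorem ae_hasSum_wΓ :
    ∀ᵐ z ∂(volume : Measure ℍ), HasSum (fun g : Γ => (wΓ Γ ((g : SL(2, ℤ)) • z)).toReal) 1 :=
  (isPartition_wΓ Γ).hasSum_toReal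

theorem integrable_wΓ : Integrable (fun z => (wΓ Γ z).toReal) (volume : Measure ℍ) :=
  IsPartition.integrable_toReal (measurable_wΓ Γ) (lintegral_wΓ_ne_top Γ)

example (N : ℕ) [NeZero N] :
    IsPartition ↥(CongruenceSubgroup.Gamma0 N) (volume : Measure ℍ)
      (wΓ (CongruenceSubgroup.Gamma0 N)) := isPartition_wΓ _

end Fermat.Agent.ES.PET.PartitionGamma5
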