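/-
Program K (S31), chapter PET, helper21: boundedness of the Petersson integrand of slashed forms.

`‖petersson k f g z‖ ^ 2 = ‖petersson k f f z‖ * ‖petersson k g g z‖`, and `petersson_slash`
turns a bound for `petersson k f f` into a bound for `petersson k (f ∣[k] α) (f ∣[k] α)`.
Hence `petersson k (f ∣[k] α) (g ∣[k] β)` is bounded on `ℍ` for cusp forms `f, g` and arbitrary
`α, β ∈ GL(2, ℝ)` — without knowing that `f ∣[k] α` is a cusp form for some smaller group.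
-/
import Mathlib

set_option autoImplicit false

namespace Fermat.Agent.ES.PET.PetBound21

open UpperHalfPlane
open scoped ModularForm MatrixGroups

theorem norm_petersson (k : ℤ) (f g : ℍ → ℂ) (z : ℍ) :
    ‖petersson k f g z‖ = ‖f z‖ * ‖g z‖ * z.im ^ k := by
  have him : ‖((z.im : ℂ)) ^ k‖ = z.im ^ k := by
    rw [norm_zpow, Complex.norm_real, Real.norm_of_nonneg z.im_pos.le]
  rw [petersson, norm_mul, norm_mul, Complex.norm_conj, him]

/-- Cauchy–Schwarz with equality for the pointwise Petersson integrand. -/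
theorem norm_petersson_sq (k : ℤ) (f g : ℍ → ℂ) (z : ℍ) :
    ‖petersson k f g z‖ ^ 2 = ‖petersson k f f z‖ * ‖petersson k g g z‖ := by
  rw [norm_petersson, norm_petersson, norm_petersson]
  ring

theorem norm_petersson_le_add (k : ℤ) (f g : ℍ → ℂ) (z : ℍ) {A B : ℝ}
    (hA : ‖petersson k f f z‖ ≤ A) (hB : ‖petersson k g g z‖ ≤ B) :
    ‖petersson k f g z‖ ≤ A + B := by
  have hA0 : 0 ≤ A := (norm_nonneg _).trans hA
  have hB0 : 0 ≤ B := (norm_nonneg _).trans hB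
  have h1 : ‖petersson k f g z‖ ^ 2 ≤ (A + B) ^ 2 := by
    rw [norm_petersson_sq]
    calc ‖petersson k f f z‖ * ‖petersson k g g z‖ ≤ A * B :=
          mul_le_mul hA hB (norm_nonneg _) hA0
      _ ≤ (A + B) ^ 2 := by nlinarith [sq_nonneg A, sq_nonneg B]
  exact (pow_le_pow_iff_left₀ (norm_nonneg _) (add_nonneg hA0 hB0) two_ne_zero).mp h1

theorem norm_petersson_slash_self (k : ℤ) (f : ℍ → ℂ) (α : GL (Fin 2) ℝ) (z : ℍ) :
    ‖petersson k (f ∣[k] α) (f ∣[k] α) z‖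
      = |α.det.val| ^ (k - 2) * ‖petersson k f f (α • z)‖ := by
  rw [petersson_slash, norm_mul, norm_zpow, Complex.norm_real, Real.norm_eq_abs, abs_abs]
  congr 1
  unfold UpperHalfPlane.σ
  split_ifs
  · rfl
  · exact Complex.norm_conj _

/-- a bound for `petersson k f f` gives a bound for the slashed function. -/
theorem exists_bound_slash_self (k : ℤ) (f : ℍ → ℂ) (α : GL (Fin 2) ℝ)
    (hf : ∃ C, ∀ z, ‖petersson k f f z‖ ≤ C) :
    ∃ C, ∀ z, ‖petersson k (f ∣[k] α) (f ∣[k] α) z‖ ≤ C := by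
  obtain ⟨C, hC⟩ := hf
  refine ⟨|α.det.val| ^ (k - 2) * C, fun z => ?_⟩
  rw [norm_petersson_slash_self]
  exact mul_le_mul_of_nonneg_left (hC _) (zpow_nonneg (abs_nonneg _) _)

/-- **Boundedness of the mixed slashed Petersson integrand.** -/
theorem exists_bound_petersson_slash (k : ℤ) (f g : ℍ → ℂ) (α β : GL (Fin 2) ℝ)
    (hf : ∃ C, ∀ z, ‖petersson k f f z‖ ≤ C) (hg : ∃ C, ∀ z, ‖petersson k g g z‖ ≤ C) :
    ∃ C, ∀ z, ‖petersson k (f ∣[k] α) (g ∣[k] β) z‖ ≤ C := by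
  obtain ⟨A, hA⟩ := exists_bound_slash_self k f α hf
  obtain ⟨B, hB⟩ := exists_bound_slash_self k g β hg
  exact ⟨A + B, fun z => norm_petersson_le_add k _ _ z (hA z) (hB z)⟩

/-- the same with only one side slashed. -/
theorem exists_bound_petersson_slash_left (k : ℤ) (f g : ℍ → ℂ) (α : GL (Fin 2) ℝ)
    (hf : ∃ C, ∀ z, ‖petersson k f f z‖ ≤ C) (hg : ∃ C, ∀ z, ‖petersson k g g z‖ ≤ C) :
    ∃ C, ∀ z, ‖petersson k (f ∣[k] α) g z‖ ≤ C := by
  obtain ⟨A, hA⟩ := exists_bound_slash_self k f α hf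
  obtain ⟨B, hB⟩ := hg
  exact ⟨A + B, fun z => norm_petersson_le_add k _ _ z (hA z) (hB z)⟩

theorem exists_bound_petersson_slash_right (k : ℤ) (f g : ℍ → ℂ) (β : GL (Fin 2) ℝ)
    (hf : ∃ C, ∀ z, ‖petersson k f f z‖ ≤ C) (hg : ∃ C, ∀ z, ‖petersson k g g z‖ ≤ C) :
    ∃ C, ∀ z, ‖petersson k f (g ∣[k] β) z‖ ≤ C := by
  obtain ⟨A, hA⟩ := hf
  obtain ⟨B, hB⟩ := exists_bound_slash_self k g β hg
  exact ⟨A + B, fun z => norm_petersson_le_add k _ _ z (hA z) (hB z)⟩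

/-- cusp forms of level `Γ₀(N)` have bounded `petersson k f f`. -/
theorem exists_bound_cuspForm {N : ℕ} [NeZero N] (k : ℤ)
    (f : CuspForm (CongruenceSubgroup.Gamma0 N) k) : ∃ C, ∀ z, ‖petersson k ⇑f ⇑f z‖ ≤ C :=
  CuspFormClass.petersson_bounded_left k _ f f

/-- **consumer form**: for cusp forms `f, g` on `Γ₀(N)` and `α, β ∈ GL(2, ℝ)`. -/
theorem exists_bound_cuspForm_slash {N : ℕ} [NeZero N] (k : ℤ)
    (f g : CuspForm (CongruenceSubgroup.Gamma0 N) k) (α β : GL (Fin 2) ℝ) :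
    ∃ C, ∀ z, ‖petersson k (⇑f ∣[k] α) (⇑g ∣[k] β) z‖ ≤ C :=
  exists_bound_petersson_slash k _ _ α β (exists_bound_cuspForm k f) (exists_bound_cuspForm k g)

end Fermat.Agent.ES.PET.PetBound21
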