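/-
S31 / chapter PET (helper5): boundedness, continuity and measurability of the Petersson integrands
`petersson k f (g ∣[k] α)` for cusp forms `f, g` of an arithmetic level `Γ` and ANY `α ∈ GL(2, ℝ)`
(input (ii) of the self-adjointness leaf (P6)).  Mathlib only.

Trick: the pointwise identity `‖P(f, h)‖² = ‖P(f, f)‖ · ‖P(h, h)‖` and `petersson_slash` reduce the
bound to `CuspFormClass.petersson_bounded_left` for `(f, f)` and `(g, g)`.
-/
import Mathlib

set_option autoImplicit false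

open UpperHalfPlane ModularForm
open scoped MatrixGroups ModularForm Manifold ComplexConjugate

noncomputable section

namespace Fermat.Agent.ES.PET.PetBound5

/-- Pointwise Cauchy–Schwarz (an equality) for the Petersson integrand. -/
theorem norm_petersson_sq (k : ℤ) (f h : ℍ → ℂ) (τ : ℍ) :
    ‖petersson k f h τ‖ ^ 2 = ‖petersson k f f τ‖ * ‖petersson k h h τ‖ := by
  simp only [petersson, norm_mul, Complex.norm_conj]
  ring

theorem norm_petersson_slash_self (k : ℤ) (h : ℍ → ℂ) (α : GL (Fin 2) ℝ) (τ : ℍ) :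
    ‖petersson k (h ∣[k] α) (h ∣[k] α) τ‖ =
      |α.det.val| ^ (k - 2) * ‖petersson k h h (α • τ)‖ := by
  rw [petersson_slash, norm_mul, norm_σ, norm_zpow, Complex.norm_real, Real.norm_eq_abs, abs_abs]

/-- If `P(f, f)` and `P(g, g)` are bounded, so is `P(f, g ∣[k] α)`. -/
theorem petersson_slash_bounded_of_bounded (k : ℤ) {f g : ℍ → ℂ} {Cf Cg : ℝ}
    (hf : ∀ τ, ‖petersson k f f τ‖ ≤ Cf) (hg : ∀ τ, ‖petersson k g g τ‖ ≤ Cg)
    (α : GL (Fin 2) ℝ) (τ : ℍ) :
    ‖petersson k f (g ∣[k] α) τ‖ ≤ Real.sqrt (Cf * (|α.det.val| ^ (k - 2) * Cg)) := by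
  apply Real.le_sqrt_of_sq_le
  rw [norm_petersson_sq, norm_petersson_slash_self]
  have hD : (0 : ℝ) ≤ |α.det.val| ^ (k - 2) := zpow_nonneg (abs_nonneg _) _
  exact mul_le_mul (hf τ) (mul_le_mul_of_nonneg_left (hg _) hD)
    (mul_nonneg hD (norm_nonneg _)) ((norm_nonneg _).trans (hf τ))

variable (k : ℤ) (Γ : Subgroup (GL (Fin 2) ℝ)) [Γ.IsArithmetic] {F F' : Type*} [FunLike F ℍ ℂ]
  [FunLike F' ℍ ℂ] [CuspFormClass F Γ k] [CuspFormClass F' Γ k]

include Γ

/-- **Boundedness of `P(f, g ∣[k] α)`** for cusp forms `f, g` and any `α ∈ GL(2, ℝ)`. -/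
theorem petersson_slash_bounded (f : F) (g : F') (α : GL (Fin 2) ℝ) :
    ∃ C, ∀ τ, ‖petersson k f ((g : ℍ → ℂ) ∣[k] α) τ‖ ≤ C := by
  obtain ⟨Cf, hCf⟩ := CuspFormClass.petersson_bounded_left k Γ f f
  obtain ⟨Cg, hCg⟩ := CuspFormClass.petersson_bounded_left k Γ g g
  exact ⟨_, petersson_slash_bounded_of_bounded k hCf hCg α⟩

/-- Symmetric form: `P(f ∣[k] α, g)` is bounded. -/
theorem petersson_slash_bounded_left (f : F) (g : F') (α : GL (Fin 2) ℝ) :
    ∃ C, ∀ τ, ‖petersson k ((f : ℍ → ℂ) ∣[k] α) g τ‖ ≤ C := by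
  obtain ⟨C, hC⟩ := petersson_slash_bounded k Γ g f α
  exact ⟨C, fun τ => by rw [petersson_norm_symm]; exact hC τ⟩

/-- Both sides slashed: `P(f ∣[k] α, g ∣[k] β)` is bounded. -/
theorem petersson_slash_slash_bounded (f : F) (g : F') (α β : GL (Fin 2) ℝ) :
    ∃ C, ∀ τ, ‖petersson k ((f : ℍ → ℂ) ∣[k] α) ((g : ℍ → ℂ) ∣[k] β) τ‖ ≤ C := by
  obtain ⟨Cf, hCf⟩ := CuspFormClass.petersson_bounded_left k Γ f f
  obtain ⟨Cg, hCg⟩ := CuspFormClass.petersson_bounded_left k Γ g g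
  refine ⟨Real.sqrt ((|α.det.val| ^ (k - 2) * Cf) * (|β.det.val| ^ (k - 2) * Cg)), fun τ => ?_⟩
  apply Real.le_sqrt_of_sq_le
  rw [norm_petersson_sq, norm_petersson_slash_self, norm_petersson_slash_self]
  have hA : (0 : ℝ) ≤ |α.det.val| ^ (k - 2) := zpow_nonneg (abs_nonneg _) _
  have hB : (0 : ℝ) ≤ |β.det.val| ^ (k - 2) := zpow_nonneg (abs_nonneg _) _
  exact mul_le_mul (mul_le_mul_of_nonneg_left (hCf _) hA) (mul_le_mul_of_nonneg_left (hCg _) hB)
    (mul_nonneg hB (norm_nonneg _)) (mul_nonneg hA ((norm_nonneg _).trans (hCf τ)))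

omit [Γ.IsArithmetic] in
/-- The slashed cusp form is continuous. -/
theorem continuous_slash (g : F') (α : GL (Fin 2) ℝ) : Continuous ((g : ℍ → ℂ) ∣[k] α) :=
  ((CuspFormClass.holo g).slash k α).continuous

omit [Γ.IsArithmetic] in
theorem continuous_petersson_slash (f : F) (g : F') (α : GL (Fin 2) ℝ) :
    Continuous (petersson k f ((g : ℍ → ℂ) ∣[k] α)) :=
  petersson_continuous k (CuspFormClass.holo f).continuous (continuous_slash k Γ g α)

omit [Γ.IsArithmetic] in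
theorem measurable_petersson_slash (f : F) (g : F') (α : GL (Fin 2) ℝ) :
    Measurable (petersson k f ((g : ℍ → ℂ) ∣[k] α)) :=
  (continuous_petersson_slash k Γ f g α).measurable

omit [Γ.IsArithmetic] in
theorem continuous_petersson (f : F) (g : F') : Continuous (petersson k f g) :=
  petersson_continuous k (CuspFormClass.holo f).continuous (CuspFormClass.holo g).continuous

end Fermat.Agent.ES.PET.PetBound5
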