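/-
S31 / chapter PET, leaf (X3) (helper5): equivariance of the Petersson integrands
`petersson 2 (f ∣ β_i) g` and `petersson 2 f (g ∣ β_i)` under `Γ₀(N)` (the index `i` is permuted by
`DoubleCoset27.perm`), and the expansion of `petersson 2 (T_ℓ f) g` as a sum over the
representatives `β_i = glBeta ℓ i`.
-/
import Fermat.Agent.ES.HEQ.DoubleCoset27

set_option autoImplicit false
set_option linter.unusedSectionVars false

open Fermat.Agent.ES.HEQ.DoubleCoset27 CongruenceSubgroup UpperHalfPlane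
open scoped ModularForm MatrixGroups

noncomputable section

namespace Fermat.Agent.ES.PET.PetEquivariant5

variable {ℓ : ℕ} [hℓ : Fact ℓ.Prime]

/-- `(f ∣ β_i) ∣ γ = (f ∣ coc γ i) ∣ β_{perm γ i}` for any function `f`. -/
theorem slash_glBeta_slash (f : ℍ → ℂ) (γ : SL(2, ℤ)) (i : Option (ZMod ℓ)) :
    (f ∣[(2 : ℤ)] glBeta ℓ i) ∣[(2 : ℤ)] γ =
      (f ∣[(2 : ℤ)] (coc (p := ℓ) γ i)) ∣[(2 : ℤ)] glBeta ℓ (perm γ i) := by
  rw [ModularForm.SL_slash, ModularForm.SL_slash, ← SlashAction.slash_mul, ← SlashAction.slash_mul]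
  congr 1
  exact glBeta_mul γ i

variable {N : ℕ} [NeZero N]

/-- A form of level `Γ₀(N)` is invariant under the slash action of `γ ∈ Γ₀(N)`. -/
theorem slash_eq_self (f : CuspForm (Gamma0 N) 2) {γ : SL(2, ℤ)} (hγ : γ ∈ Gamma0 N) :
    (⇑f : ℍ → ℂ) ∣[(2 : ℤ)] γ = ⇑f := by
  rw [ModularForm.SL_slash]
  exact SlashInvariantFormClass.slash_action_eq f _ (Subgroup.mem_map_of_mem _ hγ)

/-- `(f ∣ β_i) ∣ γ = f ∣ β_{perm γ i}` for `f` of level `Γ₀(N)`, `γ ∈ Γ₀(N)`, `ℓ ∤ N`. -/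
theorem slash_glBeta_slash_of_mem (hℓN : ¬ ℓ ∣ N) (f : CuspForm (Gamma0 N) 2) {γ : SL(2, ℤ)}
    (hγ : γ ∈ Gamma0 N) (i : Option (ZMod ℓ)) :
    ((⇑f : ℍ → ℂ) ∣[(2 : ℤ)] glBeta ℓ i) ∣[(2 : ℤ)] γ = (⇑f : ℍ → ℂ) ∣[(2 : ℤ)] glBeta ℓ (perm γ i) := by
  rw [slash_glBeta_slash, slash_eq_self f (coc_mem_Gamma0 hℓN hγ i)]

/-- **(X3), left slot.** -/
theorem petersson_left_equivariant (hℓN : ¬ ℓ ∣ N) (f g : CuspForm (Gamma0 N) 2) (γ : SL(2, ℤ))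
    (hγ : γ ∈ Gamma0 N) (i : Option (ZMod ℓ)) (z : ℍ) :
    petersson 2 ((⇑f : ℍ → ℂ) ∣[(2 : ℤ)] glBeta ℓ i) ⇑g (γ • z) =
      petersson 2 ((⇑f : ℍ → ℂ) ∣[(2 : ℤ)] glBeta ℓ (perm γ i)) ⇑g z := by
  rw [← petersson_slash_SL, slash_glBeta_slash_of_mem hℓN f hγ i, slash_eq_self g hγ]

/-- **(X3), right slot.** -/
theorem petersson_right_equivariant (hℓN : ¬ ℓ ∣ N) (f g : CuspForm (Gamma0 N) 2) (γ : SL(2, ℤ))
    (hγ : γ ∈ Gamma0 N) (i : Option (ZMod ℓ)) (z : ℍ) :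
    petersson 2 ⇑f ((⇑g : ℍ → ℂ) ∣[(2 : ℤ)] glBeta ℓ i) (γ • z) =
      petersson 2 ⇑f ((⇑g : ℍ → ℂ) ∣[(2 : ℤ)] glBeta ℓ (perm γ i)) z := by
  rw [← petersson_slash_SL, slash_glBeta_slash_of_mem hℓN g hγ i, slash_eq_self f hγ]

omit [NeZero N] in
/-- The Petersson integrand is additive in the first slot (finite sums). -/
theorem petersson_sum_left {ι : Type*} (s : Finset ι) (F : ι → ℍ → ℂ) (g : ℍ → ℂ) (z : ℍ) :
    petersson 2 (∑ i ∈ s, F i) g z = ∑ i ∈ s, petersson 2 (F i) g z := by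
  simp only [petersson, Finset.sum_apply, map_sum, Finset.sum_mul]

omit [NeZero N] in
/-- The Petersson integrand is additive in the second slot (finite sums). -/
theorem petersson_sum_right {ι : Type*} (s : Finset ι) (f : ℍ → ℂ) (G : ι → ℍ → ℂ) (z : ℍ) :
    petersson 2 f (∑ i ∈ s, G i) z = ∑ i ∈ s, petersson 2 f (G i) z := by
  simp only [petersson, Finset.sum_apply, Finset.mul_sum, Finset.sum_mul]

omit [NeZero N] in
/-- **(X3)**: `P(T_ℓ f, g) = ∑_i P(f ∣ β_i, g)`. -/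
theorem petersson_heckeT_left (f g : ℍ → ℂ) (z : ℍ) :
    petersson 2 (ModularForm.heckeT 2 ℓ f) g z =
      ∑ i : Option (ZMod ℓ), petersson 2 (f ∣[(2 : ℤ)] glBeta ℓ i) g z := by
  rw [heckeT_eq_sum, petersson_sum_left]

omit [NeZero N] in
/-- **(X3)**: `P(f, T_ℓ g) = ∑_i P(f, g ∣ β_i)`. -/
theorem petersson_heckeT_right (f g : ℍ → ℂ) (z : ℍ) :
    petersson 2 f (ModularForm.heckeT 2 ℓ g) z =
      ∑ i : Option (ZMod ℓ), petersson 2 f (g ∣[(2 : ℤ)] glBeta ℓ i) z := by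
  rw [heckeT_eq_sum, petersson_sum_right]

end Fermat.Agent.ES.PET.PetEquivariant5
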