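/-
Program "S31" (plan `S31_PLAN27.md`), chapter PET, leaf (P5) (helper10): **the Petersson form**.
Mathlib only.

For a weight function `w : ℍ → ℝ` and functions `f g : ℍ → ℂ`,
  `petW w k f g := ∫ z, w z * conj (f z) * g z * (im z) ^ k dμ`   (`μ` = Mathlib's hyperbolic measure on `ℍ`).
When `w` is a partition function of a subgroup `Γ ≤ SL(2, ℤ)` (`IsRealPartition Γ w`: `0 ≤ w`, integrable,
`∑_{γ ∈ Γ} w (γ z) = 1` for almost every `z`) this is the Petersson scalar product on `Γ \ ℍ`.

* `isOpenPosMeasure_volume`, `eq_zero_of_ae_eq_zero`: the hyperbolic measure charges every nonempty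
  open set; a continuous function vanishing a.e. vanishes;
* `measurePreserving_SL_smul`, `countable_SL`;
* `ae_eq_zero_of_partition`: `w P = 0` a.e., `P` `Γ`-invariant, `w` a partition ⇒ `P = 0` a.e.;
* `petW`, `integrable_petW`, `petW_add_left/right`, `petW_smul_left/right`, `petW_conj_symm`,
  `petW_self`, `petW_self_nonneg`, **`petW_self_eq_zero`** (definiteness);
* cusp forms on `Γ₀(N)`: `petForm N k w : CuspForm (Gamma0 N) k → CuspForm (Gamma0 N) k → ℂ` with
  `petForm_add_left/right`, `petForm_smul_left/right`, `petForm_conj_symm`, `petForm_self_nonneg`,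
  **`petForm_definite`** (`petForm f f = 0 → f = 0`), `petForm_integrable`;
* `isRealPartition_of_ennreal`: bridge from an `ℝ≥0∞`-valued partition function.
-/
import Mathlib

set_option autoImplicit false
set_option linter.style.haveILetI false
set_option linter.unusedSectionVars false

namespace Fermat.Agent.ES.PET.PetForm10

open UpperHalfPlane MeasureTheory Filter CongruenceSubgroup
open scoped MatrixGroups ComplexConjugate ENNReal NNReal

noncomputable section

/-! ### The hyperbolic measure is positive on open sets -/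

theorem measurable_density :
    Measurable fun z : ℍ => ((↑((1 / NNReal.mk z.im z.im_pos.le : ℝ≥0) ^ 2) : ℝ≥0∞)) := by
  have h1 : Continuous fun z : ℍ => (NNReal.mk z.im z.im_pos.le : ℝ≥0) :=
    continuous_im.subtype_mk _
  have h2 : Continuous fun z : ℍ => ((1 / NNReal.mk z.im z.im_pos.le : ℝ≥0) ^ 2) :=
    (continuous_const.div₀ h1 (fun x => NNReal.ne_iff.mp x.im_ne_zero)).pow 2
  exact (ENNReal.continuous_coe.comp h2).measurable

theorem density_ne_zero (z : ℍ) :
    ((↑((1 / NNReal.mk z.im z.im_pos.le : ℝ≥0) ^ 2) : ℝ≥0∞)) ≠ 0 := by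
  have h : (NNReal.mk z.im z.im_pos.le : ℝ≥0) ≠ 0 := NNReal.ne_iff.mp z.im_ne_zero
  have h2 : ((1 / NNReal.mk z.im z.im_pos.le : ℝ≥0) ^ 2) ≠ 0 :=
    pow_ne_zero 2 (one_div_ne_zero h)
  exact_mod_cast h2

/-- The hyperbolic volume of a nonempty open subset of `ℍ` is positive. -/
theorem isOpenPosMeasure_volume : (volume : Measure ℍ).IsOpenPosMeasure := by
  haveI h1 : (volume.comap UpperHalfPlane.coe : Measure ℍ).IsOpenPosMeasure :=
    Measure.IsOpenPosMeasure.comap volume isOpenEmbedding_coe
  rw [volume_def]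
  exact Measure.AbsolutelyContinuous.isOpenPosMeasure
    (withDensity_absolutelyContinuous' measurable_density.aemeasurable
      (Eventually.of_forall density_ne_zero))

/-- A continuous function on `ℍ` which vanishes almost everywhere vanishes. -/
theorem eq_zero_of_ae_eq_zero {f : ℍ → ℂ} (hf : Continuous f) (h : ∀ᵐ z ∂(volume : Measure ℍ), f z = 0) :
    f = 0 := by
  haveI := isOpenPosMeasure_volume
  exact (Continuous.ae_eq_iff_eq (volume : Measure ℍ) hf continuous_const).mp h

/-! ### The action of `SL(2, ℤ)` preserves the measure -/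

theorem measurePreserving_SL_smul (γ : SL(2, ℤ)) :
    MeasurePreserving (fun z : ℍ => γ • z) volume volume :=
  measurePreserving_smul (Matrix.SpecialLinearGroup.mapGL ℝ γ) (volume : Measure ℍ)

theorem countable_matrix : Countable (Matrix (Fin 2) (Fin 2) ℤ) :=
  show Countable (Fin 2 → Fin 2 → ℤ) from inferInstance

theorem countable_SL : Countable SL(2, ℤ) := by
  haveI := countable_matrix
  exact Subtype.countable

/-! ### The almost-everywhere argument -/

variable (Γ : Subgroup SL(2, ℤ))

/-- If `w` is a partition function for `Γ` (`∑_γ w (γ z) = 1` a.e.), `P` is `Γ`-invariant and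
`w P = 0` a.e., then `P = 0` a.e. -/
theorem ae_eq_zero_of_partition {w : ℍ → ℝ} {P : ℍ → ℂ}
    (hsum : ∀ᵐ z ∂(volume : Measure ℍ), HasSum (fun γ : Γ => w ((γ : SL(2, ℤ)) • z)) 1)
    (hinv : ∀ γ ∈ Γ, ∀ z, P (γ • z) = P z)
    (h0 : ∀ᵐ z ∂(volume : Measure ℍ), (w z : ℂ) * P z = 0) :
    ∀ᵐ z ∂(volume : Measure ℍ), P z = 0 := by
  haveI := countable_SL
  have h1 : ∀ γ : Γ, ∀ᵐ z ∂(volume : Measure ℍ),
      (w ((γ : SL(2, ℤ)) • z) : ℂ) * P ((γ : SL(2, ℤ)) • z) = 0 :=
    fun γ => (measurePreserving_SL_smul (γ : SL(2, ℤ))).quasiMeasurePreserving.ae h0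
  have h2 : ∀ᵐ z ∂(volume : Measure ℍ), ∀ γ : Γ,
      (w ((γ : SL(2, ℤ)) • z) : ℂ) * P ((γ : SL(2, ℤ)) • z) = 0 := ae_all_iff.mpr h1
  filter_upwards [hsum, h2] with z hz1 hz2
  have h3 : HasSum (fun γ : Γ => (w ((γ : SL(2, ℤ)) • z) : ℂ) * P z) ((1 : ℂ) * P z) := by
    have := Complex.hasSum_ofReal.mpr hz1
    rw [Complex.ofReal_one] at this
    exact this.mul_right (P z)
  have h4 : ∀ γ : Γ, (w ((γ : SL(2, ℤ)) • z) : ℂ) * P z = 0 := fun γ => by
    rw [← hinv γ γ.2 z]
    exact hz2 γ
  simp only [h4, one_mul] at h3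
  exact (h3.unique hasSum_zero)

/-! ### The weighted Petersson integral -/

/-- The Petersson integral `∫ w · conj f · g · y^k dμ` with respect to a weight `w` (to be a partition
function of the group) and the hyperbolic measure. -/
def petW (w : ℍ → ℝ) (k : ℤ) (f g : ℍ → ℂ) : ℂ :=
  ∫ z : ℍ, (w z : ℂ) * petersson k f g z

/-- The integrand is integrable if `w` is and the Petersson function is bounded and continuous. -/
theorem integrable_petW {w : ℍ → ℝ} {k : ℤ} {f g : ℍ → ℂ} (hw : Integrable w (volume : Measure ℍ))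
    (hf : Continuous f) (hg : Continuous g) (hb : ∃ C, ∀ z, ‖petersson k f g z‖ ≤ C) :
    Integrable (fun z : ℍ => (w z : ℂ) * petersson k f g z) (volume : Measure ℍ) := by
  obtain ⟨C, hC⟩ := hb
  exact hw.ofReal.mul_bdd (petersson_continuous k hf hg).aestronglyMeasurable (c := C)
    (Eventually.of_forall hC)

theorem petersson_add_left (k : ℤ) (f f' g : ℍ → ℂ) (z : ℍ) :
    petersson k (f + f') g z = petersson k f g z + petersson k f' g z := by
  simp only [petersson, Pi.add_apply, map_add]
  ring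

theorem petersson_add_right (k : ℤ) (f g g' : ℍ → ℂ) (z : ℍ) :
    petersson k f (g + g') z = petersson k f g z + petersson k f g' z := by
  simp only [petersson, Pi.add_apply]
  ring

theorem petersson_smul_right (k : ℤ) (c : ℂ) (f g : ℍ → ℂ) (z : ℍ) :
    petersson k f (c • g) z = c * petersson k f g z := by
  simp only [petersson, Pi.smul_apply, smul_eq_mul]
  ring

theorem petersson_smul_left (k : ℤ) (c : ℂ) (f g : ℍ → ℂ) (z : ℍ) :
    petersson k (c • f) g z = conj c * petersson k f g z := by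
  simp only [petersson, Pi.smul_apply, smul_eq_mul, map_mul]
  ring

theorem petW_add_left {w : ℍ → ℝ} {k : ℤ} {f f' g : ℍ → ℂ}
    (h1 : Integrable (fun z : ℍ => (w z : ℂ) * petersson k f g z) (volume : Measure ℍ))
    (h2 : Integrable (fun z : ℍ => (w z : ℂ) * petersson k f' g z) (volume : Measure ℍ)) :
    petW w k (f + f') g = petW w k f g + petW w k f' g := by
  unfold petW
  rw [← integral_add h1 h2]
  refine integral_congr_ae (Eventually.of_forall fun z => ?_)
  simp only [petersson_add_left]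
  ring

theorem petW_add_right {w : ℍ → ℝ} {k : ℤ} {f g g' : ℍ → ℂ}
    (h1 : Integrable (fun z : ℍ => (w z : ℂ) * petersson k f g z) (volume : Measure ℍ))
    (h2 : Integrable (fun z : ℍ => (w z : ℂ) * petersson k f g' z) (volume : Measure ℍ)) :
    petW w k f (g + g') = petW w k f g + petW w k f g' := by
  unfold petW
  rw [← integral_add h1 h2]
  refine integral_congr_ae (Eventually.of_forall fun z => ?_)
  simp only [petersson_add_right]
  ring

theorem petW_smul_right (w : ℍ → ℝ) (k : ℤ) (c : ℂ) (f g : ℍ → ℂ) :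
    petW w k f (c • g) = c * petW w k f g := by
  unfold petW
  rw [← integral_const_mul]
  refine integral_congr_ae (Eventually.of_forall fun z => ?_)
  simp only [petersson_smul_right]
  ring

theorem petW_smul_left (w : ℍ → ℝ) (k : ℤ) (c : ℂ) (f g : ℍ → ℂ) :
    petW w k (c • f) g = conj c * petW w k f g := by
  unfold petW
  rw [← integral_const_mul]
  refine integral_congr_ae (Eventually.of_forall fun z => ?_)
  simp only [petersson_smul_left]
  ring

theorem petW_conj_symm (w : ℍ → ℝ) (k : ℤ) (f g : ℍ → ℂ) :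
    petW w k g f = conj (petW w k f g) := by
  unfold petW
  rw [← integral_conj]
  refine integral_congr_ae (Eventually.of_forall fun z => ?_)
  simp only [map_mul, Complex.conj_ofReal, petersson_symm k f g]

/-- The diagonal Petersson function is a nonnegative real. -/
theorem petersson_self (k : ℤ) (f : ℍ → ℂ) (z : ℍ) :
    petersson k f f z = ((Complex.normSq (f z) * z.im ^ k : ℝ) : ℂ) := by
  simp only [petersson, Complex.ofReal_mul, Complex.ofReal_zpow]
  rw [Complex.normSq_eq_conj_mul_self]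

theorem petW_self (w : ℍ → ℝ) (k : ℤ) (f : ℍ → ℂ) :
    petW w k f f = ((∫ z : ℍ, w z * (Complex.normSq (f z) * z.im ^ k) : ℝ) : ℂ) := by
  unfold petW
  rw [← integral_complex_ofReal]
  refine integral_congr_ae (Eventually.of_forall fun z => ?_)
  simp only [petersson_self, Complex.ofReal_mul]

theorem petW_self_nonneg {w : ℍ → ℝ} (hw0 : ∀ z, 0 ≤ w z) (k : ℤ) (f : ℍ → ℂ) :
    0 ≤ (petW w k f f).re ∧ (petW w k f f).im = 0 := by
  rw [petW_self]
  refine ⟨?_, Complex.ofReal_im _⟩
  rw [Complex.ofReal_re]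
  exact integral_nonneg fun z =>
    mul_nonneg (hw0 z) (mul_nonneg (Complex.normSq_nonneg _) (zpow_nonneg z.im_pos.le _))

/-- **Definiteness.**  If `w ≥ 0` is a partition function for `Γ`, `f` is continuous with
`Γ`-invariant Petersson function, the diagonal integrand is integrable and `⟨f, f⟩_w = 0`, then
`f = 0`. -/
theorem petW_self_eq_zero {w : ℍ → ℝ} (hw0 : ∀ z, 0 ≤ w z)
    (hsum : ∀ᵐ z ∂(volume : Measure ℍ), HasSum (fun γ : Γ => w ((γ : SL(2, ℤ)) • z)) 1)
    {k : ℤ} {f : ℍ → ℂ} (hf : Continuous f)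
    (hinv : ∀ γ ∈ Γ, ∀ z, petersson k f f (γ • z) = petersson k f f z)
    (hint : Integrable (fun z : ℍ => (w z : ℂ) * petersson k f f z) (volume : Measure ℍ))
    (h : petW w k f f = 0) : f = 0 := by
  -- the real integrand
  have hintR : Integrable (fun z : ℍ => w z * (Complex.normSq (f z) * z.im ^ k))
      (volume : Measure ℍ) := by
    have : (fun z : ℍ => (w z : ℂ) * petersson k f f z) =
        fun z : ℍ => ((w z * (Complex.normSq (f z) * z.im ^ k) : ℝ) : ℂ) := by
      funext z
      rw [petersson_self]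
      push_cast
      ring
    rw [this] at hint
    have h2 := hint.re
    simp only [RCLike.re_to_complex, Complex.ofReal_re] at h2
    exact h2
  rw [petW_self] at h
  have h' : ∫ z : ℍ, w z * (Complex.normSq (f z) * z.im ^ k) = 0 := by exact_mod_cast h
  have hnn : 0 ≤ᵐ[(volume : Measure ℍ)] fun z : ℍ => w z * (Complex.normSq (f z) * z.im ^ k) :=
    Eventually.of_forall fun z =>
      mul_nonneg (hw0 z) (mul_nonneg (Complex.normSq_nonneg _) (zpow_nonneg z.im_pos.le _))
  have h0 := (integral_eq_zero_iff_of_nonneg_ae hnn hintR).mp h'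
  have h0' : ∀ᵐ z ∂(volume : Measure ℍ), (w z : ℂ) * petersson k f f z = 0 := by
    filter_upwards [h0] with z hz
    rw [petersson_self, ← Complex.ofReal_mul]
    exact_mod_cast hz
  have hP := ae_eq_zero_of_partition Γ hsum hinv h0'
  apply eq_zero_of_ae_eq_zero hf
  filter_upwards [hP] with z hz
  rw [petersson_self] at hz
  have hz' : Complex.normSq (f z) * z.im ^ k = 0 := by exact_mod_cast hz
  rcases mul_eq_zero.mp hz' with h1 | h1
  · exact Complex.normSq_eq_zero.mp h1
  · exact absurd h1 (zpow_ne_zero _ z.im_ne_zero)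

/-! ### Cusp forms on `Γ₀(N)` -/

section CuspForms

variable (N : ℕ) [NeZero N] (k : ℤ)

theorem cuspForm_continuous (f : CuspForm (Gamma0 N) k) : Continuous (f : ℍ → ℂ) :=
  (CuspFormClass.holo f).continuous

theorem cuspForm_petersson_bounded (f g : CuspForm (Gamma0 N) k) :
    ∃ C, ∀ z, ‖petersson k (f : ℍ → ℂ) (g : ℍ → ℂ) z‖ ≤ C :=
  CuspFormClass.petersson_bounded_left k _ f g

theorem cuspForm_petersson_smul (f g : CuspForm (Gamma0 N) k) (γ : SL(2, ℤ)) (hγ : γ ∈ Gamma0 N)
    (z : ℍ) : petersson k (f : ℍ → ℂ) (g : ℍ → ℂ) (γ • z) = petersson k (f : ℍ → ℂ) (g : ℍ → ℂ) z := by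
  have hmem : (Matrix.SpecialLinearGroup.mapGL ℝ γ) ∈
      ((Gamma0 N : Subgroup SL(2, ℤ)) : Subgroup (GL (Fin 2) ℝ)) := ⟨γ, hγ, rfl⟩
  exact SlashInvariantFormClass.petersson_smul (f := f) (f' := g) hmem



/-- `w` is a (real-valued) partition function for `Γ`: nonnegative, integrable, and
`∑_{γ ∈ Γ} w (γ z) = 1` for almost every `z`. -/
structure IsRealPartition (Γ : Subgroup SL(2, ℤ)) (w : ℍ → ℝ) : Prop where
  nonneg : ∀ z, 0 ≤ w z
  integrable : Integrable w (volume : Measure ℍ)
  hasSum : ∀ᵐ z ∂(volume : Measure ℍ), HasSum (fun γ : Γ => w ((γ : SL(2, ℤ)) • z)) 1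

/-- The Petersson form on cusp forms of weight `k` on `Γ₀(N)`, computed with the weight `w`. -/
def petForm (w : ℍ → ℝ) (f g : CuspForm (Gamma0 N) k) : ℂ :=
  petW w k (f : ℍ → ℂ) (g : ℍ → ℂ)

variable {N k}

theorem petForm_integrable {w : ℍ → ℝ} (hw : Integrable w (volume : Measure ℍ))
    (f g : CuspForm (Gamma0 N) k) :
    Integrable (fun z : ℍ => (w z : ℂ) * petersson k (f : ℍ → ℂ) (g : ℍ → ℂ) z)
      (volume : Measure ℍ) :=
  integrable_petW hw (cuspForm_continuous N k f) (cuspForm_continuous N k g)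
    (cuspForm_petersson_bounded N k f g)

theorem petForm_add_left {w : ℍ → ℝ} (hw : Integrable w (volume : Measure ℍ))
    (f f' g : CuspForm (Gamma0 N) k) :
    petForm N k w (f + f') g = petForm N k w f g + petForm N k w f' g := by
  unfold petForm
  rw [CuspForm.coe_add]
  exact petW_add_left (petForm_integrable hw f g) (petForm_integrable hw f' g)

theorem petForm_add_right {w : ℍ → ℝ} (hw : Integrable w (volume : Measure ℍ))
    (f g g' : CuspForm (Gamma0 N) k) :
    petForm N k w f (g + g') = petForm N k w f g + petForm N k w f g' := by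
  unfold petForm
  rw [CuspForm.coe_add]
  exact petW_add_right (petForm_integrable hw f g) (petForm_integrable hw f g')

theorem petForm_smul_right (w : ℍ → ℝ) (c : ℂ) (f g : CuspForm (Gamma0 N) k) :
    petForm N k w f (c • g) = c * petForm N k w f g := by
  unfold petForm
  rw [CuspForm.coe_smul]
  exact petW_smul_right w k c _ _

theorem petForm_smul_left (w : ℍ → ℝ) (c : ℂ) (f g : CuspForm (Gamma0 N) k) :
    petForm N k w (c • f) g = conj c * petForm N k w f g := by
  unfold petForm
  rw [CuspForm.coe_smul]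
  exact petW_smul_left w k c _ _

theorem petForm_conj_symm (w : ℍ → ℝ) (f g : CuspForm (Gamma0 N) k) :
    petForm N k w g f = conj (petForm N k w f g) :=
  petW_conj_symm w k _ _

theorem petForm_self_nonneg {w : ℍ → ℝ} (hw0 : ∀ z, 0 ≤ w z) (f : CuspForm (Gamma0 N) k) :
    0 ≤ (petForm N k w f f).re ∧ (petForm N k w f f).im = 0 :=
  petW_self_nonneg hw0 k _

theorem petForm_zero_left (w : ℍ → ℝ) (g : CuspForm (Gamma0 N) k) : petForm N k w 0 g = 0 := by
  have := petForm_smul_left w (0 : ℂ) (0 : CuspForm (Gamma0 N) k) g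
  simpa using this

theorem petForm_zero_right (w : ℍ → ℝ) (f : CuspForm (Gamma0 N) k) : petForm N k w f 0 = 0 := by
  have := petForm_smul_right w (0 : ℂ) f (0 : CuspForm (Gamma0 N) k)
  simpa using this

/-- **The Petersson form is definite**: `⟨f, f⟩ = 0 ⇒ f = 0`. -/
theorem petForm_definite {w : ℍ → ℝ} (hw : IsRealPartition (Gamma0 N) w)
    (f : CuspForm (Gamma0 N) k) (h : petForm N k w f f = 0) : f = 0 := by
  have h0 : (f : ℍ → ℂ) = 0 :=
    petW_self_eq_zero (Gamma0 N) hw.nonneg hw.hasSum (cuspForm_continuous N k f)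
      (fun γ hγ z => cuspForm_petersson_smul N k f f γ hγ z)
      (petForm_integrable hw.integrable f f) h
  exact DFunLike.coe_injective h0

end CuspForms

/-! ### Bridge from `ℝ≥0∞`-valued partition functions -/

/-- An `ℝ≥0∞`-valued partition function with finite total mass gives a real-valued one. -/
theorem isRealPartition_of_ennreal (Γ : Subgroup SL(2, ℤ)) {w : ℍ → ℝ≥0∞} (hm : Measurable w)
    (hfin : ∫⁻ z : ℍ, w z ≠ ⊤)
    (hsum : ∀ᵐ z ∂(volume : Measure ℍ), ∑' γ : Γ, w ((γ : SL(2, ℤ)) • z) = 1) :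
    IsRealPartition Γ (fun z => (w z).toReal) where
  nonneg _ := ENNReal.toReal_nonneg
  integrable := integrable_toReal_of_lintegral_ne_top hm.aemeasurable hfin
  hasSum := by
    filter_upwards [hsum] with z hz
    have hne : ∑' γ : Γ, w ((γ : SL(2, ℤ)) • z) ≠ ⊤ := by rw [hz]; exact ENNReal.one_ne_top
    have h1 := ENNReal.hasSum_toReal hne
    have h2 : ∑' γ : Γ, (w ((γ : SL(2, ℤ)) • z)).toReal = 1 := by
      rw [← ENNReal.tsum_toReal_eq (fun γ => ENNReal.ne_top_of_tsum_ne_top hne γ), hz,
        ENNReal.toReal_one]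
    rw [h2] at h1
    exact h1

end

end Fermat.Agent.ES.PET.PetForm10
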