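/-
Program S31 (plan `S31_PLAN27.md`), leaf (P7) (helper15): **the anemic Hecke algebra is reduced**,
given ONE biadditive form `B` on `S₂(Γ₀(N))` which is definite (`B f f = 0 → f = 0`) and for which
every `T_ℓ`, `ℓ ∤ N`, is self-adjoint (the Petersson product, chapters (P5)/(P6)).

Only additivity of `B` in both slots is used (`ℤ`-bilinearity follows), so both conventions for the
conjugate-linear slot are fine.  Mathlib + the Prelude's definition modules only.
-/
import Mathlib
import Fermat.Prelude.Def_CuspForm_HeckeAlgebra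

set_option autoImplicit false

namespace Fermat.Agent.ES.PET.Reduced15

open CuspForm

variable {N : ℕ} [NeZero N]

/-- the contract of chapters (P5)/(P6): a biadditive definite form for which the `T_ℓ`, `ℓ ∤ N`, are
self-adjoint. -/
structure PeterssonForm (N : ℕ) [NeZero N] where
  /-- the form -/
  B : CuspForm (CongruenceSubgroup.Gamma0 N) 2 → CuspForm (CongruenceSubgroup.Gamma0 N) 2 → ℂ
  add_left : ∀ f f' g, B (f + f') g = B f g + B f' g
  add_right : ∀ f g g', B f (g + g') = B f g + B f g'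
  definite : ∀ f, B f f = 0 → f = 0
  adjoint : ∀ (ℓ : ℕ) (hℓ : ℓ.Prime) (hℓN : ¬ ℓ ∣ N)
    (f g : CuspForm (CongruenceSubgroup.Gamma0 N) 2),
    B (heckeTLin 2 hℓ hℓN f) g = B f (heckeTLin 2 hℓ hℓN g)

namespace PeterssonForm

variable (P : PeterssonForm N)

theorem zero_left (g : CuspForm (CongruenceSubgroup.Gamma0 N) 2) : P.B 0 g = 0 := by
  have h := P.add_left 0 0 g
  rw [add_zero] at h
  exact left_eq_add.mp h

theorem zero_right (f : CuspForm (CongruenceSubgroup.Gamma0 N) 2) : P.B f 0 = 0 := by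
  have h := P.add_right f 0 0
  rw [add_zero] at h
  exact left_eq_add.mp h

theorem neg_left (f g : CuspForm (CongruenceSubgroup.Gamma0 N) 2) : P.B (-f) g = -P.B f g := by
  have h := P.add_left f (-f) g
  rw [add_neg_cancel, P.zero_left] at h
  exact eq_neg_of_add_eq_zero_right h.symm

theorem neg_right (f g : CuspForm (CongruenceSubgroup.Gamma0 N) 2) : P.B f (-g) = -P.B f g := by
  have h := P.add_right f g (-g)
  rw [add_neg_cancel, P.zero_right] at h
  exact eq_neg_of_add_eq_zero_right h.symm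

/-- the self-adjoint endomorphisms. -/
def IsSelfAdj (t : Module.End ℂ (CuspForm (CongruenceSubgroup.Gamma0 N) 2)) : Prop :=
  ∀ f g, P.B (t f) g = P.B f (t g)

theorem isSelfAdj_zero : P.IsSelfAdj 0 := fun f g => by
  rw [LinearMap.zero_apply, LinearMap.zero_apply, P.zero_left, P.zero_right]

theorem isSelfAdj_one : P.IsSelfAdj 1 := fun _ _ => rfl

theorem IsSelfAdj.add {s t : Module.End ℂ (CuspForm (CongruenceSubgroup.Gamma0 N) 2)}
    (hs : P.IsSelfAdj s) (ht : P.IsSelfAdj t) : P.IsSelfAdj (s + t) := fun f g => by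
  rw [LinearMap.add_apply, LinearMap.add_apply, P.add_left, P.add_right, hs, ht]

theorem IsSelfAdj.neg {s : Module.End ℂ (CuspForm (CongruenceSubgroup.Gamma0 N) 2)}
    (hs : P.IsSelfAdj s) : P.IsSelfAdj (-s) := fun f g => by
  rw [LinearMap.neg_apply, LinearMap.neg_apply, P.neg_left, P.neg_right, hs]

theorem IsSelfAdj.mul_of_commute {s t : Module.End ℂ (CuspForm (CongruenceSubgroup.Gamma0 N) 2)}
    (hs : P.IsSelfAdj s) (ht : P.IsSelfAdj t) (hst : Commute s t) : P.IsSelfAdj (s * t) :=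
  fun f g => by
    rw [Module.End.mul_apply, hs, ht, ← Module.End.mul_apply, hst.eq]

theorem isSelfAdj_natCast (n : ℕ) :
    P.IsSelfAdj ((n : ℕ) : Module.End ℂ (CuspForm (CongruenceSubgroup.Gamma0 N) 2)) := by
  induction n with
  | zero => rw [Nat.cast_zero]; exact P.isSelfAdj_zero
  | succ n ih => rw [Nat.cast_succ]; exact ih.add P P.isSelfAdj_one

theorem isSelfAdj_intCast (n : ℤ) :
    P.IsSelfAdj ((n : ℤ) : Module.End ℂ (CuspForm (CongruenceSubgroup.Gamma0 N) 2)) := by
  cases n with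
  | ofNat n => rw [Int.ofNat_eq_natCast, Int.cast_natCast]; exact P.isSelfAdj_natCast n
  | negSucc n =>
    rw [Int.cast_negSucc]
    exact (P.isSelfAdj_natCast (n + 1)).neg P

/-- every element of the anemic Hecke algebra (`S` contains the primes dividing `N`) is
self-adjoint. -/
theorem isSelfAdj_of_mem (S : Set ℕ) (hNS : ∀ q : ℕ, q.Prime → q ∣ N → q ∈ S)
    {t : Module.End ℂ (CuspForm (CongruenceSubgroup.Gamma0 N) 2)} (ht : t ∈ heckeAlgebra N 2 S) :
    P.IsSelfAdj t := by
  unfold heckeAlgebra at ht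
  induction ht using Algebra.adjoin_induction with
  | mem x hx =>
    rcases hx with ⟨ℓ, hℓ, hℓN, -, rfl⟩ | ⟨q, hqN, hq, hqS, rfl⟩
    · exact fun f g => P.adjoint ℓ hℓ hℓN f g
    · exact absurd (hNS q hq hqN) hqS
  | algebraMap r =>
    rw [eq_intCast]
    exact P.isSelfAdj_intCast r
  | add x y hx hy ihx ihy => exact ihx.add P ihy
  | mul x y hx hy ihx ihy =>
    refine ihx.mul_of_commute P ihy ?_
    have h := mul_comm (⟨x, hx⟩ : heckeAlgebra N 2 S) ⟨y, hy⟩
    exact congrArg Subtype.val h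

/-- **(P7)** the anemic Hecke algebra is reduced. -/
theorem isReduced_heckeAlgebra (P : PeterssonForm N) (S : Set ℕ)
    (hNS : ∀ q : ℕ, q.Prime → q ∣ N → q ∈ S) : IsReduced (heckeAlgebra N 2 S) := by
  rw [isReduced_iff_pow_one_lt 2 one_lt_two]
  rintro ⟨t, ht⟩ h2
  have hsa := P.isSelfAdj_of_mem S hNS ht
  have h2' : t * t = 0 := by
    have := congrArg Subtype.val h2
    simpa [pow_two] using this
  apply Subtype.ext
  apply LinearMap.ext
  intro f
  apply P.definite
  rw [hsa, ← Module.End.mul_apply, h2', LinearMap.zero_apply, P.zero_right]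

end PeterssonForm

/-- **(P7)**, unbundled form. -/
theorem isReduced_heckeAlgebra (S : Set ℕ) (hNS : ∀ q : ℕ, q.Prime → q ∣ N → q ∈ S)
    (B : CuspForm (CongruenceSubgroup.Gamma0 N) 2 → CuspForm (CongruenceSubgroup.Gamma0 N) 2 → ℂ)
    (hadd_left : ∀ f f' g, B (f + f') g = B f g + B f' g)
    (hadd_right : ∀ f g g', B f (g + g') = B f g + B f g')
    (hdef : ∀ f, B f f = 0 → f = 0)
    (hadj : ∀ (ℓ : ℕ) (hℓ : ℓ.Prime) (hℓN : ¬ ℓ ∣ N)
      (f g : CuspForm (CongruenceSubgroup.Gamma0 N) 2),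
      B (heckeTLin 2 hℓ hℓN f) g = B f (heckeTLin 2 hℓ hℓN g)) :
    IsReduced (heckeAlgebra N 2 S) :=
  PeterssonForm.isReduced_heckeAlgebra ⟨B, hadd_left, hadd_right, hdef, hadj⟩ S hNS

end Fermat.Agent.ES.PET.Reduced15
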