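/-
Program "S31" (plan `S31_PLAN27.md`), chapter PET, leaf (P5) (helper10), part 2:
**the Petersson form of record** on `S_k(Γ₀(N))`, in the literal shape fixed by the chapter lead
(helper21, msg #7058):

  `w z := (PartitionGamma5.wΓ (Gamma0 N) z).toReal`,
  `B f g := ∫ z, w z • UpperHalfPlane.petersson k ⇑f ⇑g z ∂volume`.

Everything is a corollary of `PetForm10` (generic real partition functions) and of helper5's
`PartitionGamma5` (`wΓ` is a partition function of finite mass).

* `wR N`, `isRealPartition_wR`;
* `petB N k f g` (the `•`-shape), `petB_eq_petForm`, `petB_two` (weight 2, unfolded);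
* `petB_add_left/right`, `petB_smul_left/right`, `petB_conj_symm`, `petB_self_nonneg`,
  **`petB_definite`**, `petB_integrable`;
* `peterssonFormOfAdjoint`: helper15's contract `Reduced15.PeterssonForm N` from the single remaining
  input (P6) (self-adjointness of the `T_ℓ` for `petB N 2`), and the corollary
  `isReduced_heckeAlgebra_of_adjoint`.
-/
import Fermat.Agent.ES.PET.PetForm10
import Fermat.Agent.ES.PET.PartitionGamma5
import Fermat.Agent.ES.PET.Reduced15

set_option autoImplicit false

namespace Fermat.Agent.ES.PET.PetGamma10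

open UpperHalfPlane MeasureTheory Filter CongruenceSubgroup
open scoped MatrixGroups ComplexConjugate ENNReal NNReal
open Fermat.Agent.ES.PET.PetForm10 Fermat.Agent.ES.PET.PartitionGamma5

noncomputable section

variable (N : ℕ) [NeZero N]

/-- the weight function of record for `Γ₀(N)`. -/
def wR (z : ℍ) : ℝ := (wΓ (Gamma0 N) z).toReal

theorem wR_apply (z : ℍ) : wR N z = (wΓ (Gamma0 N) z).toReal := rfl

theorem wR_nonneg (z : ℍ) : 0 ≤ wR N z := ENNReal.toReal_nonneg

theorem integrable_wR : Integrable (wR N) (volume : Measure ℍ) := integrable_wΓ (Gamma0 N)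

theorem isRealPartition_wR : IsRealPartition (Gamma0 N) (wR N) where
  nonneg := wR_nonneg N
  integrable := integrable_wR N
  hasSum := ae_hasSum_wΓ (Gamma0 N)

/-- **The Petersson form of record** (weight `k`, level `Γ₀(N)`), in the `•`-shape. -/
def petB (k : ℤ) (f g : CuspForm (Gamma0 N) k) : ℂ :=
  ∫ z, wR N z • UpperHalfPlane.petersson k ⇑f ⇑g z ∂(volume : Measure ℍ)

variable {N}

theorem petB_eq_petForm (k : ℤ) (f g : CuspForm (Gamma0 N) k) :
    petB N k f g = petForm N k (wR N) f g := by
  unfold petB petForm petW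
  refine integral_congr_ae (Eventually.of_forall fun z => ?_)
  exact Complex.real_smul

/-- the literal shape used by helper17/helper21. -/
theorem petB_two (f g : CuspForm (Gamma0 N) 2) :
    petB N 2 f g =
      ∫ z, (wΓ (Gamma0 N) z).toReal • UpperHalfPlane.petersson 2 ⇑f ⇑g z ∂(volume : Measure ℍ) :=
  rfl

theorem petB_integrable (k : ℤ) (f g : CuspForm (Gamma0 N) k) :
    Integrable (fun z : ℍ => wR N z • UpperHalfPlane.petersson k ⇑f ⇑g z)
      (volume : Measure ℍ) := by
  have h := petForm_integrable (integrable_wR N) f g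
  refine h.congr (Eventually.of_forall fun z => ?_)
  exact Complex.real_smul.symm

theorem petB_add_left (k : ℤ) (f f' g : CuspForm (Gamma0 N) k) :
    petB N k (f + f') g = petB N k f g + petB N k f' g := by
  simp only [petB_eq_petForm]
  exact petForm_add_left (integrable_wR N) f f' g

theorem petB_add_right (k : ℤ) (f g g' : CuspForm (Gamma0 N) k) :
    petB N k f (g + g') = petB N k f g + petB N k f g' := by
  simp only [petB_eq_petForm]
  exact petForm_add_right (integrable_wR N) f g g'

theorem petB_smul_right (k : ℤ) (c : ℂ) (f g : CuspForm (Gamma0 N) k) :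
    petB N k f (c • g) = c * petB N k f g := by
  simp only [petB_eq_petForm]
  exact petForm_smul_right (wR N) c f g

theorem petB_smul_left (k : ℤ) (c : ℂ) (f g : CuspForm (Gamma0 N) k) :
    petB N k (c • f) g = conj c * petB N k f g := by
  simp only [petB_eq_petForm]
  exact petForm_smul_left (wR N) c f g

theorem petB_conj_symm (k : ℤ) (f g : CuspForm (Gamma0 N) k) :
    petB N k g f = conj (petB N k f g) := by
  simp only [petB_eq_petForm]
  exact petForm_conj_symm (wR N) f g

theorem petB_self_nonneg (k : ℤ) (f : CuspForm (Gamma0 N) k) :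
    0 ≤ (petB N k f f).re ∧ (petB N k f f).im = 0 := by
  simp only [petB_eq_petForm]
  exact petForm_self_nonneg (wR_nonneg N) f

theorem petB_zero_left (k : ℤ) (g : CuspForm (Gamma0 N) k) : petB N k 0 g = 0 := by
  simp only [petB_eq_petForm]
  exact petForm_zero_left (wR N) g

theorem petB_zero_right (k : ℤ) (f : CuspForm (Gamma0 N) k) : petB N k f 0 = 0 := by
  simp only [petB_eq_petForm]
  exact petForm_zero_right (wR N) f

/-- **(P5)** the Petersson form of record is definite. -/
theorem petB_definite (k : ℤ) (f : CuspForm (Gamma0 N) k) (h : petB N k f f = 0) : f = 0 := by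
  rw [petB_eq_petForm] at h
  exact petForm_definite (isRealPartition_wR N) f h

/-- helper15's contract `Reduced15.PeterssonForm N`, given the single remaining input (P6):
self-adjointness of the `T_ℓ`, `ℓ ∤ N`, for the form of record. -/
def peterssonFormOfAdjoint
    (hadj : ∀ (ℓ : ℕ) (hℓ : ℓ.Prime) (hℓN : ¬ ℓ ∣ N) (f g : CuspForm (Gamma0 N) 2),
      petB N 2 (CuspForm.heckeTLin 2 hℓ hℓN f) g = petB N 2 f (CuspForm.heckeTLin 2 hℓ hℓN g)) :
    Reduced15.PeterssonForm N where
  B := petB N 2
  add_left := petB_add_left 2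
  add_right := petB_add_right 2
  definite := petB_definite 2
  adjoint := hadj

/-- **(A) of `S31_PLAN27.md` modulo (P6)**: the anemic Hecke algebra is reduced as soon as the
`T_ℓ`, `ℓ ∤ N`, are self-adjoint for the Petersson form of record. -/
theorem isReduced_heckeAlgebra_of_adjoint
    (hadj : ∀ (ℓ : ℕ) (hℓ : ℓ.Prime) (hℓN : ¬ ℓ ∣ N) (f g : CuspForm (Gamma0 N) 2),
      petB N 2 (CuspForm.heckeTLin 2 hℓ hℓN f) g = petB N 2 f (CuspForm.heckeTLin 2 hℓ hℓN g))
    (S : Set ℕ) (hNS : ∀ q : ℕ, q.Prime → q ∣ N → q ∈ S) :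
    IsReduced (CuspForm.heckeAlgebra N 2 S) :=
  (peterssonFormOfAdjoint hadj).isReduced_heckeAlgebra S hNS

end

end Fermat.Agent.ES.PET.PetGamma10
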