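import Mathlib

/-!
# Abstract double-coset unfolding (S31, chapter PET, step (P6))

`G` acts on a measure space `(X, μ)` preserving `μ`; `Γ ≤ G` is a countable subgroup with a
partition function `w` (`∑ γ, w (γ • x) = 1` a.e.).  A double coset `Δ` is parametrised on the left
by `(γ, i) ↦ γ * a i` and on the right by `(j, γ) ↦ b j * γ`.  For a family `Ψ α` of functions which
is right `Γ`-invariant in `α` and left `Γ`-equivariant, the sums
`∑ i, ∫ w x • Ψ (a i) (a i • x)` and `∑ j, ∫ w x • Ψ (b j) x` agree.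
-/

namespace Fermat.Agent.ES.PET.SelfAdjAbs17

open MeasureTheory ENNReal

variable {G X : Type*} [Group G] [MeasurableSpace X] [MulAction G X] [MeasurableConstSMul G X]
  {μ : Measure X} [SMulInvariantMeasure G X μ]

theorem lintegral_smul_eq (c : G) (F : X → ℝ≥0∞) : ∫⁻ x, F (c • x) ∂μ = ∫⁻ x, F x ∂μ :=
  (measurePreserving_smul c μ).lintegral_comp_emb (MeasurableEquiv.smul c).measurableEmbedding F

theorem ae_smul_of_ae (c : G) {p : X → Prop} (h : ∀ᵐ x ∂μ, p x) : ∀ᵐ x ∂μ, p (c • x) :=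
  (measurePreserving_smul c μ).quasiMeasurePreserving.ae h

/-- The unfolded term attached to an element `α` of the double coset. -/
noncomputable def term (μ : Measure X) (w : X → ℝ≥0∞) (Ψ : G → X → ℝ≥0∞) (α : G) : ℝ≥0∞ :=
  ∫⁻ x, w x * w (α⁻¹ • x) * Ψ α x ∂μ

section nn

variable (Γ : Subgroup G) [Countable Γ] {w : X → ℝ≥0∞} (hwm : Measurable w)
  (hw1 : ∀ᵐ x ∂μ, ∑' γ : Γ, w ((γ : G) • x) = 1)
  (Ψ : G → X → ℝ≥0∞) (hΨm : ∀ α, Measurable (Ψ α))

include hwm hw1 hΨm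

theorem side_left (hΨl : ∀ (α : G) (γ : Γ) (x : X), Ψ (γ * α) x = Ψ α ((γ : G)⁻¹ • x)) (c : G) :
    ∫⁻ x, w x * Ψ c (c • x) ∂μ = ∑' γ : Γ, term μ w Ψ ((γ : G) * c) := by
  have h1 : ∀ᵐ x ∂μ, w x * Ψ c (c • x) =
      ∑' γ : Γ, w x * Ψ c (c • x) * w ((γ : G) • c • x) := by
    filter_upwards [ae_smul_of_ae c hw1] with x hx
    rw [ENNReal.tsum_mul_left, hx, mul_one]
  rw [lintegral_congr_ae h1, lintegral_tsum]
  · refine tsum_congr fun γ => ?_
    unfold term
    rw [← lintegral_smul_eq (μ := μ) ((γ : G) * c)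
      (fun y => w y * w (((γ : G) * c)⁻¹ • y) * Ψ ((γ : G) * c) y)]
    refine lintegral_congr fun x => ?_
    rw [inv_smul_smul, hΨl, mul_smul, inv_smul_smul]
    ring
  · intro γ
    exact ((hwm.mul ((hΨm c).comp (measurable_const_smul c))).mul
      (hwm.comp ((measurable_const_smul (γ : G)).comp (measurable_const_smul c)))).aemeasurable

theorem side_right (hΨr : ∀ (α : G) (γ : Γ), Ψ (α * γ) = Ψ α) (c : G) :
    ∫⁻ x, w x * Ψ c x ∂μ = ∑' γ : Γ, term μ w Ψ (c * (γ : G)) := by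
  have hw1' : ∀ᵐ x ∂μ, ∑' γ : Γ, w ((γ : G)⁻¹ • x) = 1 := by
    filter_upwards [hw1] with x hx
    rw [← hx]
    exact (Equiv.inv Γ).tsum_eq (fun γ : Γ => w ((γ : G) • x))
  have h1 : ∀ᵐ x ∂μ, w x * Ψ c x = ∑' γ : Γ, w x * Ψ c x * w ((γ : G)⁻¹ • c⁻¹ • x) := by
    filter_upwards [ae_smul_of_ae c⁻¹ hw1'] with x hx
    rw [ENNReal.tsum_mul_left, hx, mul_one]
  rw [lintegral_congr_ae h1, lintegral_tsum]
  · refine tsum_congr fun γ => ?_
    unfold term
    refine lintegral_congr fun x => ?_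
    simp only [hΨr, mul_inv_rev, mul_smul]
    ring
  · intro γ
    exact ((hwm.mul (hΨm c)).mul
      (hwm.comp ((measurable_const_smul ((γ : G)⁻¹)).comp (measurable_const_smul c⁻¹)))).aemeasurable

/-- **Unfolding over a double coset**, `ℝ≥0∞`-valued version (no integrability needed). -/
theorem unfold_nn {I J : Type*} [Fintype I] [Fintype J] (a : I → G) (b : J → G)
    (hL : Function.Injective fun p : Γ × I => (p.1 : G) * a p.2)
    (hR : Function.Injective fun p : J × Γ => b p.1 * (p.2 : G))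
    (hLR : Set.range (fun p : Γ × I => (p.1 : G) * a p.2) =
      Set.range fun p : J × Γ => b p.1 * (p.2 : G))
    (hΨr : ∀ (α : G) (γ : Γ), Ψ (α * γ) = Ψ α)
    (hΨl : ∀ (α : G) (γ : Γ) (x : X), Ψ (γ * α) x = Ψ α ((γ : G)⁻¹ • x)) :
    ∑ i, ∫⁻ x, w x * Ψ (a i) (a i • x) ∂μ = ∑ j, ∫⁻ x, w x * Ψ (b j) x ∂μ := by
  have hl : ∑ i, ∫⁻ x, w x * Ψ (a i) (a i • x) ∂μ =
      ∑' p : Γ × I, term μ w Ψ ((p.1 : G) * a p.2) := by
    rw [ENNReal.tsum_prod', ENNReal.tsum_comm, tsum_fintype]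
    exact Finset.sum_congr rfl fun i _ => side_left Γ hwm hw1 Ψ hΨm hΨl (a i)
  have hr : ∑ j, ∫⁻ x, w x * Ψ (b j) x ∂μ =
      ∑' p : J × Γ, term μ w Ψ (b p.1 * (p.2 : G)) := by
    rw [ENNReal.tsum_prod', tsum_fintype]
    exact Finset.sum_congr rfl fun j _ => side_right Γ hwm hw1 Ψ hΨm hΨr (b j)
  rw [hl, hr, ← tsum_range (term μ w Ψ) hL, ← tsum_range (term μ w Ψ) hR, hLR]

end nn

/-! ### Conversion to Bochner integrals -/

section conv

variable {w : X → ℝ≥0∞} (hwm : Measurable w) (hwf : ∫⁻ x, w x ∂μ ≠ ∞)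

include hwm hwf

omit [MulAction G X] [MeasurableConstSMul G X] [SMulInvariantMeasure G X μ] in
theorem integrable_toReal_mul {F : X → ℝ} (hF : Measurable F) {C : ℝ} (hC : ∀ x, |F x| ≤ C) :
    Integrable (fun x => (w x).toReal * F x) μ := by
  have hw : Integrable (fun x => (w x).toReal) μ :=
    integrable_toReal_of_lintegral_ne_top hwm.aemeasurable hwf
  exact hw.mul_bdd hF.aestronglyMeasurable (Filter.Eventually.of_forall fun x => by
    simpa [Real.norm_eq_abs] using hC x)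

omit [MulAction G X] [MeasurableConstSMul G X] [SMulInvariantMeasure G X μ] in
theorem integral_toReal_mul_eq {F : X → ℝ} (hF : Measurable F) (hF0 : ∀ x, 0 ≤ F x) :
    ∫ x, (w x).toReal * F x ∂μ = (∫⁻ x, w x * ENNReal.ofReal (F x) ∂μ).toReal := by
  rw [integral_eq_lintegral_of_nonneg_ae
    (Filter.Eventually.of_forall fun x => mul_nonneg ENNReal.toReal_nonneg (hF0 x))
    (hwm.ennreal_toReal.mul hF).aestronglyMeasurable]
  congr 1
  refine lintegral_congr_ae ?_
  filter_upwards [ae_lt_top hwm hwf] with x hx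
  rw [ENNReal.ofReal_mul ENNReal.toReal_nonneg, ENNReal.ofReal_toReal hx.ne]

omit [MulAction G X] [MeasurableConstSMul G X] [SMulInvariantMeasure G X μ] in
theorem lintegral_mul_ofReal_ne_top {F : X → ℝ} {C : ℝ} (hC : ∀ x, F x ≤ C) :
    ∫⁻ x, w x * ENNReal.ofReal (F x) ∂μ ≠ ∞ := by
  refine ne_top_of_le_ne_top (b := ∫⁻ x, w x * ENNReal.ofReal C ∂μ) ?_
    (lintegral_mono fun x => mul_le_mul_right (ENNReal.ofReal_le_ofReal (hC x)) _)
  rw [lintegral_mul_const _ hwm]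
  exact ENNReal.mul_ne_top hwf ENNReal.ofReal_ne_top

end conv

section real

variable (Γ : Subgroup G) [Countable Γ] {w : X → ℝ≥0∞} (hwm : Measurable w)
  (hw1 : ∀ᵐ x ∂μ, ∑' γ : Γ, w ((γ : G) • x) = 1) (hwf : ∫⁻ x, w x ∂μ ≠ ∞)
  {I J : Type*} [Fintype I] [Fintype J] (a : I → G) (b : J → G)
  (hL : Function.Injective fun p : Γ × I => (p.1 : G) * a p.2)
  (hR : Function.Injective fun p : J × Γ => b p.1 * (p.2 : G))
  (hLR : Set.range (fun p : Γ × I => (p.1 : G) * a p.2) =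
    Set.range fun p : J × Γ => b p.1 * (p.2 : G))

include hwm hw1 hwf hL hR hLR

/-- Unfolding for nonnegative bounded real families. -/
theorem unfold_real_nonneg (Ψ : G → X → ℝ) (hΨm : ∀ α, Measurable (Ψ α))
    (hΨ0 : ∀ α x, 0 ≤ Ψ α x) {C : ℝ} (hCa : ∀ i x, Ψ (a i) x ≤ C) (hCb : ∀ j x, Ψ (b j) x ≤ C)
    (hΨr : ∀ (α : G) (γ : Γ), Ψ (α * γ) = Ψ α)
    (hΨl : ∀ (α : G) (γ : Γ) (x : X), Ψ (γ * α) x = Ψ α ((γ : G)⁻¹ • x)) :
    ∑ i, ∫ x, (w x).toReal * Ψ (a i) (a i • x) ∂μ = ∑ j, ∫ x, (w x).toReal * Ψ (b j) x ∂μ := by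
  have key := unfold_nn Γ hwm hw1 (fun α x => ENNReal.ofReal (Ψ α x))
    (fun α => (hΨm α).ennreal_ofReal) a b hL hR hLR
    (fun α γ => by funext x; simp only [hΨr])
    (fun α γ x => by simp only [hΨl])
  have hi : ∀ i, ∫ x, (w x).toReal * Ψ (a i) (a i • x) ∂μ =
      (∫⁻ x, w x * ENNReal.ofReal (Ψ (a i) (a i • x)) ∂μ).toReal := fun i =>
    integral_toReal_mul_eq hwm hwf ((hΨm (a i)).comp (measurable_const_smul (a i)))
      (fun x => hΨ0 _ _)
  have hj : ∀ j, ∫ x, (w x).toReal * Ψ (b j) x ∂μ =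
      (∫⁻ x, w x * ENNReal.ofReal (Ψ (b j) x) ∂μ).toReal := fun j =>
    integral_toReal_mul_eq hwm hwf (hΨm (b j)) (fun x => hΨ0 _ _)
  simp only [hi, hj]
  rw [← ENNReal.toReal_sum, ← ENNReal.toReal_sum, key]
  · exact fun j _ => lintegral_mul_ofReal_ne_top hwm hwf (fun x => hCb j x)
  · exact fun i _ => lintegral_mul_ofReal_ne_top hwm hwf (fun x => hCa i _)

/-- Unfolding for bounded real families. -/
theorem unfold_real (Ψ : G → X → ℝ) (hΨm : ∀ α, Measurable (Ψ α))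
    {C : ℝ} (hCa : ∀ i x, |Ψ (a i) x| ≤ C) (hCb : ∀ j x, |Ψ (b j) x| ≤ C)
    (hΨr : ∀ (α : G) (γ : Γ), Ψ (α * γ) = Ψ α)
    (hΨl : ∀ (α : G) (γ : Γ) (x : X), Ψ (γ * α) x = Ψ α ((γ : G)⁻¹ • x)) :
    ∑ i, ∫ x, (w x).toReal * Ψ (a i) (a i • x) ∂μ = ∑ j, ∫ x, (w x).toReal * Ψ (b j) x ∂μ := by
  have hp := unfold_real_nonneg Γ hwm hw1 hwf a b hL hR hLR (fun α x => max (Ψ α x) 0)
    (fun α => (hΨm α).max measurable_const) (fun α x => le_max_right _ _) (C := C)
    (fun i x => max_le ((le_abs_self _).trans (hCa i x)) ((abs_nonneg _).trans (hCa i x)))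
    (fun j x => max_le ((le_abs_self _).trans (hCb j x)) ((abs_nonneg _).trans (hCb j x)))
    (fun α γ => by funext x; simp only [hΨr]) (fun α γ x => by simp only [hΨl])
  have hn := unfold_real_nonneg Γ hwm hw1 hwf a b hL hR hLR (fun α x => max (-Ψ α x) 0)
    (fun α => (hΨm α).neg.max measurable_const) (fun α x => le_max_right _ _) (C := C)
    (fun i x => max_le ((neg_le_abs _).trans (hCa i x)) ((abs_nonneg _).trans (hCa i x)))
    (fun j x => max_le ((neg_le_abs _).trans (hCb j x)) ((abs_nonneg _).trans (hCb j x)))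
    (fun α γ => by funext x; simp only [hΨr]) (fun α γ x => by simp only [hΨl])
  have hsplit : ∀ (F : X → ℝ), Measurable F → (∀ x, |F x| ≤ C) →
      ∫ x, (w x).toReal * F x ∂μ =
        ∫ x, (w x).toReal * max (F x) 0 ∂μ - ∫ x, (w x).toReal * max (-F x) 0 ∂μ := by
    intro F hF hFC
    rw [← integral_sub]
    · refine integral_congr_ae (Filter.Eventually.of_forall fun x => ?_)
      simp only
      rw [← mul_sub]
      congr 1
      rcases le_total 0 (F x) with h | h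
      · rw [max_eq_left h, max_eq_right (by linarith)]; ring
      · rw [max_eq_right h, max_eq_left (by linarith)]; ring
    · exact integrable_toReal_mul hwm hwf (hF.max measurable_const) (C := C) fun x => by
        rw [abs_of_nonneg (le_max_right _ _)]
        exact max_le ((le_abs_self _).trans (hFC x)) ((abs_nonneg _).trans (hFC x))
    · exact integrable_toReal_mul hwm hwf (hF.neg.max measurable_const) (C := C) fun x => by
        rw [abs_of_nonneg (le_max_right _ _)]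
        exact max_le ((neg_le_abs _).trans (hFC x)) ((abs_nonneg _).trans (hFC x))
  have hi : ∀ i, ∫ x, (w x).toReal * Ψ (a i) (a i • x) ∂μ =
      ∫ x, (w x).toReal * max (Ψ (a i) (a i • x)) 0 ∂μ -
        ∫ x, (w x).toReal * max (-Ψ (a i) (a i • x)) 0 ∂μ := fun i =>
    hsplit (fun x => Ψ (a i) (a i • x)) ((hΨm (a i)).comp (measurable_const_smul (a i)))
      (fun x => hCa i _)
  have hj : ∀ j, ∫ x, (w x).toReal * Ψ (b j) x ∂μ =
      ∫ x, (w x).toReal * max (Ψ (b j) x) 0 ∂μ -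
        ∫ x, (w x).toReal * max (-Ψ (b j) x) 0 ∂μ := fun j =>
    hsplit (Ψ (b j)) (hΨm (b j)) (hCb j)
  simp only [hi, hj, Finset.sum_sub_distrib]
  rw [hp, hn]

/-- **Unfolding over a double coset**, complex version. -/
theorem unfold_complex (Ψ : G → X → ℂ) (hΨm : ∀ α, Measurable (Ψ α))
    {C : ℝ} (hCa : ∀ i x, ‖Ψ (a i) x‖ ≤ C) (hCb : ∀ j x, ‖Ψ (b j) x‖ ≤ C)
    (hΨr : ∀ (α : G) (γ : Γ), Ψ (α * γ) = Ψ α)
    (hΨl : ∀ (α : G) (γ : Γ) (x : X), Ψ (γ * α) x = Ψ α ((γ : G)⁻¹ • x)) :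
    ∑ i, ∫ x, (w x).toReal • Ψ (a i) (a i • x) ∂μ = ∑ j, ∫ x, (w x).toReal • Ψ (b j) x ∂μ := by
  have hre := unfold_real Γ hwm hw1 hwf a b hL hR hLR (fun α x => (Ψ α x).re)
    (fun α => Complex.measurable_re.comp (hΨm α)) (C := C)
    (fun i x => (Complex.abs_re_le_norm _).trans (hCa i x))
    (fun j x => (Complex.abs_re_le_norm _).trans (hCb j x))
    (fun α γ => by funext x; simp only [hΨr]) (fun α γ x => by simp only [hΨl])
  have him := unfold_real Γ hwm hw1 hwf a b hL hR hLR (fun α x => (Ψ α x).im)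
    (fun α => Complex.measurable_im.comp (hΨm α)) (C := C)
    (fun i x => (Complex.abs_im_le_norm _).trans (hCa i x))
    (fun j x => (Complex.abs_im_le_norm _).trans (hCb j x))
    (fun α γ => by funext x; simp only [hΨr]) (fun α γ x => by simp only [hΨl])
  have hint : ∀ (F : X → ℂ), Measurable F → (∀ x, ‖F x‖ ≤ C) →
      Integrable (fun x => (w x).toReal • F x) μ := by
    intro F hF hFC
    have hw : Integrable (fun x => (w x).toReal) μ :=
      integrable_toReal_of_lintegral_ne_top hwm.aemeasurable hwf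
    exact hw.smul_bdd C hF.aestronglyMeasurable (Filter.Eventually.of_forall hFC)
  have hre' : ∀ (F : X → ℂ), Measurable F → (∀ x, ‖F x‖ ≤ C) →
      (∫ x, (w x).toReal • F x ∂μ).re = ∫ x, (w x).toReal * (F x).re ∂μ := by
    intro F hF hFC
    rw [← Complex.reCLM_apply, ← ContinuousLinearMap.integral_comp_comm _ (hint F hF hFC)]
    simp
  have him' : ∀ (F : X → ℂ), Measurable F → (∀ x, ‖F x‖ ≤ C) →
      (∫ x, (w x).toReal • F x ∂μ).im = ∫ x, (w x).toReal * (F x).im ∂μ := by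
    intro F hF hFC
    rw [← Complex.imCLM_apply, ← ContinuousLinearMap.integral_comp_comm _ (hint F hF hFC)]
    simp
  apply Complex.ext
  · simp only [Complex.re_sum]
    rw [Finset.sum_congr rfl fun i _ => hre' (fun x => Ψ (a i) (a i • x))
        ((hΨm (a i)).comp (measurable_const_smul (a i))) (fun x => hCa i _),
      Finset.sum_congr rfl fun j _ => hre' (Ψ (b j)) (hΨm (b j)) (hCb j)]
    exact hre
  · simp only [Complex.im_sum]
    rw [Finset.sum_congr rfl fun i _ => him' (fun x => Ψ (a i) (a i • x))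
        ((hΨm (a i)).comp (measurable_const_smul (a i))) (fun x => hCa i _),
      Finset.sum_congr rfl fun j _ => him' (Ψ (b j)) (hΨm (b j)) (hCb j)]
    exact him

end real

end Fermat.Agent.ES.PET.SelfAdjAbs17
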