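import Mathlib
import Fermat.Agent.ES.HEQ.DoubleCoset27
import Fermat.Agent.ES.PET.SelfAdjAbs17
import Fermat.Agent.ES.PET.Unfold12
import Fermat.Prelude.Def_CuspForm_HeckeAlgebra

/-!
# Self-adjointness of `T_p` for the Petersson product (S31, chapter PET, step (P6))

Instantiation of `SelfAdjAbs17.unfold_complex` with the double coset
`Γ₀(N) diag(1,p) Γ₀(N)`, `p ∤ N`.
-/

open Matrix CongruenceSubgroup UpperHalfPlane MeasureTheory
open scoped MatrixGroups ModularForm Manifold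

namespace Fermat.Agent.ES.PET.SelfAdjHecke17

open Fermat.Agent.ES.HEQ.DoubleCoset27 Matrix.SpecialLinearGroup

variable {p : ℕ} [hp : Fact p.Prime] {N : ℕ}

/-! ### Integer matrices -/

/-- If `M = g β_k` has lower left entry divisible by `N` (and `p ∤ N`) then `g ∈ Γ₀(N)`. -/
theorem mem_Gamma0_of_decomp (hpN : ¬ p ∣ N) {M : Matrix (Fin 2) (Fin 2) ℤ} {g : SL(2, ℤ)}
    {k : Option (ZMod p)} (h : M = (g : Matrix (Fin 2) (Fin 2) ℤ) * beta p k)
    (hM : ((M 1 0 : ℤ) : ZMod N) = 0) : g ∈ Gamma0 N := by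
  rw [Gamma0_mem]
  have e10 := congrFun (congrFun h 1) 0
  simp only [Matrix.mul_apply, Fin.sum_univ_two, beta_one_zero, mul_zero, add_zero] at e10
  have hc := congrArg (Int.cast : ℤ → ZMod N) e10
  push_cast at hc
  rw [hM] at hc
  have hcop : Nat.Coprime p N := (Nat.Prime.coprime_iff_not_dvd hp.out).mpr hpN
  have hunit : IsUnit (((beta p k) 0 0 : ℤ) : ZMod N) := by
    cases k with
    | none =>
      simp only [beta_none, Matrix.of_apply, Matrix.cons_val', Matrix.cons_val_zero,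
        Matrix.cons_val_fin_one, Int.cast_natCast]
      exact (ZMod.unitOfCoprime p hcop).isUnit
    | some j => simp
  exact (hunit.mul_left_eq_zero).mp hc.symm

/-- The adjugate of `γ β_i`, `γ ∈ Γ₀(N)`, is again of the form `γ' β_k` with `γ' ∈ Γ₀(N)`. -/
theorem exists_adjugate_decomp (hpN : ¬ p ∣ N) (γ : SL(2, ℤ)) (hγ : γ ∈ Gamma0 N)
    (i : Option (ZMod p)) :
    ∃ (k : Option (ZMod p)) (g : SL(2, ℤ)), g ∈ Gamma0 N ∧
      ((g : Matrix (Fin 2) (Fin 2) ℤ) * beta p k) * ((γ : Matrix (Fin 2) (Fin 2) ℤ) * beta p i)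
        = (p : ℤ) • (1 : Matrix (Fin 2) (Fin 2) ℤ) := by
  set M : Matrix (Fin 2) (Fin 2) ℤ := (γ : Matrix (Fin 2) (Fin 2) ℤ) * beta p i with hMdef
  have hdetM : M.det = p := by rw [hMdef, Matrix.det_mul, γ.2, det_beta, one_mul]
  have hdet' : M.adjugate.det = p := by
    rw [Matrix.det_adjugate, hdetM]; simp
  obtain ⟨k, g, hg⟩ := exists_decomp (p := p) M.adjugate hdet'
  refine ⟨k, g, ?_, ?_⟩
  · refine mem_Gamma0_of_decomp hpN hg ?_
    rw [Matrix.adjugate_fin_two]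
    rw [Gamma0_mem] at hγ
    simp only [Matrix.of_apply, Matrix.cons_val', Matrix.cons_val_zero, Matrix.cons_val_one,
      Matrix.cons_val_fin_one, hMdef, Matrix.mul_apply, Fin.sum_univ_two, beta_one_zero,
      mul_zero, add_zero]
    push_cast
    rw [hγ]
    simp
  · rw [← hg, Matrix.adjugate_mul, hdetM]

/-! ### The double coset inside `GL(2, ℝ)` -/

/-- `Γ₀(N)` inside `GL(2, ℝ)` (the coercion used by `CuspForm (Gamma0 N) k`). -/
abbrev GamG (N : ℕ) : Subgroup (GL (Fin 2) ℝ) := (Gamma0 N).map (mapGL ℝ)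

theorem countable_GamG (N : ℕ) : Countable (GamG N) := by
  haveI : Countable (Matrix (Fin 2) (Fin 2) ℤ) := inferInstanceAs (Countable (Fin 2 → Fin 2 → ℤ))
  haveI : Countable SL(2, ℤ) := Subtype.countable
  exact Countable.of_equiv _
    ((Gamma0 N).equivMapOfInjective (mapGL ℝ) mapGL_injective).toEquiv

/-- The scalar matrix `p`. -/
noncomputable def scal (p : ℕ) [hp : Fact p.Prime] : GL (Fin 2) ℝ :=
  Units.map (Matrix.scalar (Fin 2) : ℝ →+* Matrix (Fin 2) (Fin 2) ℝ).toMonoidHom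
    (Units.mk0 (p : ℝ) (by exact_mod_cast hp.out.ne_zero))

theorem coe_scal : ((scal p : GL (Fin 2) ℝ) : Matrix (Fin 2) (Fin 2) ℝ)
    = Matrix.scalar (Fin 2) (p : ℝ) := rfl

theorem scal_comm (α : GL (Fin 2) ℝ) : scal p * α = α * scal p := by
  apply Units.ext
  rw [Units.val_mul, Units.val_mul, coe_scal]
  exact (Matrix.scalar_commute _ (fun _ => Commute.all _ _) _).eq

/-- The right representatives `b_j = p · β_j⁻¹` (the adjugates of the `β_j`). -/
noncomputable def bRep (p : ℕ) [Fact p.Prime] (j : Option (ZMod p)) : GL (Fin 2) ℝ :=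
  scal p * (glBeta p j)⁻¹

theorem coe_mapGL_mul_glBeta (g : SL(2, ℤ)) (i : Option (ZMod p)) :
    ((mapGL ℝ g * glBeta p i : GL (Fin 2) ℝ) : Matrix (Fin 2) (Fin 2) ℝ)
      = ((g : Matrix (Fin 2) (Fin 2) ℤ) * beta p i).map (Int.cast : ℤ → ℝ) := by
  rw [Matrix.map_mul_intCast, Matrix.GeneralLinearGroup.coe_mul, coe_glBeta]
  rfl

theorem glBeta_decomp_unique {g g' : SL(2, ℤ)} {i i' : Option (ZMod p)}
    (h : mapGL ℝ g * glBeta p i = mapGL ℝ g' * glBeta p i') : i = i' ∧ g = g' := by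
  have h1 := congrArg (fun x : GL (Fin 2) ℝ => (x : Matrix (Fin 2) (Fin 2) ℝ)) h
  simp only [coe_mapGL_mul_glBeta] at h1
  exact decomp_unique (Matrix.map_injective Int.cast_injective h1)

theorem exists_mul_eq_scal (hpN : ¬ p ∣ N) {γ : SL(2, ℤ)} (hγ : γ ∈ Gamma0 N)
    (i : Option (ZMod p)) :
    ∃ (k : Option (ZMod p)) (g : SL(2, ℤ)), g ∈ Gamma0 N ∧
      (mapGL ℝ g * glBeta p k) * (mapGL ℝ γ * glBeta p i) = scal p := by
  obtain ⟨k, g, hg, h⟩ := exists_adjugate_decomp hpN γ hγ i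
  refine ⟨k, g, hg, ?_⟩
  apply Units.ext
  rw [Units.val_mul, coe_mapGL_mul_glBeta, coe_mapGL_mul_glBeta, ← Matrix.map_mul_intCast, h,
    coe_scal]
  ext a b
  simp only [Matrix.map_apply, Matrix.smul_apply, Matrix.one_apply, Matrix.scalar_apply,
    Matrix.diagonal_apply, smul_eq_mul]
  split_ifs <;> simp

theorem injective_left :
    Function.Injective fun q : GamG N × Option (ZMod p) => (q.1 : GL (Fin 2) ℝ) * glBeta p q.2 := by
  rintro ⟨⟨γ, hγ⟩, i⟩ ⟨⟨γ', hγ'⟩, i'⟩ h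
  have h' : γ * glBeta p i = γ' * glBeta p i' := h
  clear h
  obtain ⟨g, -, rfl⟩ := hγ
  obtain ⟨g', -, rfl⟩ := hγ'
  obtain ⟨rfl, rfl⟩ := glBeta_decomp_unique h'
  rfl

theorem injective_right :
    Function.Injective fun q : Option (ZMod p) × GamG N => bRep p q.1 * (q.2 : GL (Fin 2) ℝ) := by
  rintro ⟨j, γ⟩ ⟨j', γ'⟩ h
  simp only [bRep] at h
  have h1 : ((γ⁻¹ : GamG N) : GL (Fin 2) ℝ) * glBeta p j
      = ((γ'⁻¹ : GamG N) : GL (Fin 2) ℝ) * glBeta p j' := by
    have h2 : (glBeta p j)⁻¹ * (γ : GL (Fin 2) ℝ) = (glBeta p j')⁻¹ * (γ' : GL (Fin 2) ℝ) := by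
      have := mul_left_cancel (by simpa only [mul_assoc] using h :
        scal p * ((glBeta p j)⁻¹ * (γ : GL (Fin 2) ℝ)) = scal p * ((glBeta p j')⁻¹ * γ'))
      exact this
    have h3 := congrArg (fun x => x⁻¹) h2
    simp only [_root_.mul_inv_rev, inv_inv] at h3
    rw [Subgroup.coe_inv, Subgroup.coe_inv]
    exact h3
  have h4 := @injective_left p hp N (γ⁻¹, j) (γ'⁻¹, j') h1
  simp only [Prod.mk.injEq, _root_.inv_inj] at h4
  exact Prod.ext h4.2 h4.1

theorem range_left_eq_range_right (hpN : ¬ p ∣ N) :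
    Set.range (fun q : GamG N × Option (ZMod p) => (q.1 : GL (Fin 2) ℝ) * glBeta p q.2) =
      Set.range fun q : Option (ZMod p) × GamG N => bRep p q.1 * (q.2 : GL (Fin 2) ℝ) := by
  ext α
  constructor
  · rintro ⟨⟨⟨γ, hγ⟩, i⟩, rfl⟩
    obtain ⟨g, hg, rfl⟩ := hγ
    obtain ⟨k, g'', hg'', h⟩ := exists_mul_eq_scal hpN hg i
    refine ⟨(k, ⟨mapGL ℝ g''⁻¹, Subgroup.mem_map_of_mem _ (inv_mem hg'')⟩), ?_⟩
    show scal p * (glBeta p k)⁻¹ * mapGL ℝ g''⁻¹ = mapGL ℝ g * glBeta p i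
    symm
    have h' : mapGL ℝ g * glBeta p i = (mapGL ℝ g'' * glBeta p k)⁻¹ * scal p := by
      rw [← h, inv_mul_cancel_left]
    rw [h', ← scal_comm, _root_.mul_inv_rev, map_inv, mul_assoc]
  · rintro ⟨⟨j, ⟨γ', hγ'⟩⟩, rfl⟩
    obtain ⟨g', hg', rfl⟩ := hγ'
    obtain ⟨k, g'', hg'', h⟩ := exists_mul_eq_scal hpN (inv_mem hg') j
    refine ⟨(⟨mapGL ℝ g'', Subgroup.mem_map_of_mem _ hg''⟩, k), ?_⟩
    show mapGL ℝ g'' * glBeta p k = scal p * (glBeta p j)⁻¹ * mapGL ℝ g'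
    have h' : mapGL ℝ g'' * glBeta p k = scal p * (mapGL ℝ g'⁻¹ * glBeta p j)⁻¹ := by
      rw [← h, mul_inv_cancel_right]
    rw [h', _root_.mul_inv_rev, map_inv, inv_inv, mul_assoc]

/-! ### Determinants, scalars -/

omit hp in
theorem det_glBeta_pos (i : Option (ZMod p)) : 0 < (glBeta p i).det.val := by
  cases i with
  | none => exact ModularForm.det_heckeDiagMatrix_pos p
  | some j => exact ModularForm.det_heckeMatrix_pos p j.val

theorem det_scal_pos : 0 < (scal p).det.val := by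
  have hp0 : (0 : ℝ) < p := by exact_mod_cast hp.out.pos
  rw [Matrix.GeneralLinearGroup.val_det_apply, coe_scal, Matrix.det_fin_two]
  simp only [Matrix.scalar_apply, Matrix.diagonal_apply_eq, ne_eq, one_ne_zero, not_false_eq_true,
    Matrix.diagonal_apply_ne, zero_ne_one, mul_zero, sub_zero]
  positivity

theorem det_bRep_pos (j : Option (ZMod p)) : 0 < (bRep p j).det.val := by
  unfold bRep
  rw [map_mul, map_inv, Units.val_mul, Units.val_inv_eq_inv_val]
  exact mul_pos det_scal_pos (inv_pos.mpr (det_glBeta_pos j))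

theorem det_pos_of_mem_GamG {γ : GL (Fin 2) ℝ} (hγ : γ ∈ GamG N) : 0 < γ.det.val := by
  rw [Subgroup.HasDetOne.det_eq hγ]
  simp

theorem scal_smul (x : ℍ) : scal p • x = x := by
  have hp0 : (p : ℂ) ≠ 0 := by exact_mod_cast hp.out.ne_zero
  ext
  rw [coe_smul_of_det_pos det_scal_pos]
  simp only [num, denom, coe_scal, Matrix.scalar_apply, Matrix.diagonal_apply_eq, ne_eq,
    one_ne_zero, not_false_eq_true, Matrix.diagonal_apply_ne, zero_ne_one, Complex.ofReal_natCast,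
    Complex.ofReal_zero, add_zero, zero_mul, zero_add]
  field_simp

theorem scal_inv_smul (x : ℍ) : (scal p)⁻¹ • x = x := by
  rw [inv_smul_eq_iff, scal_smul]

theorem slash_scal (F : ℍ → ℂ) : F ∣[(2 : ℤ)] scal p = F := by
  have hp0 : (p : ℂ) ≠ 0 := by exact_mod_cast hp.out.ne_zero
  have hp1 : (0 : ℝ) < p := by exact_mod_cast hp.out.pos
  funext τ
  rw [ModularForm.slash_apply, UpperHalfPlane.σ, if_pos det_scal_pos, scal_smul]
  have hdet : (scal p).det.val = (p : ℝ) ^ 2 := by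
    rw [Matrix.GeneralLinearGroup.val_det_apply, coe_scal, Matrix.det_fin_two]
    simp only [Matrix.scalar_apply, Matrix.diagonal_apply_eq, ne_eq, one_ne_zero,
      not_false_eq_true, Matrix.diagonal_apply_ne, zero_ne_one, mul_zero, sub_zero]
    ring
  have hden : denom (scal p) τ = (p : ℂ) := by
    simp only [denom, coe_scal, Matrix.scalar_apply, Matrix.diagonal_apply_eq, ne_eq,
      one_ne_zero, not_false_eq_true, Matrix.diagonal_apply_ne, Complex.ofReal_natCast,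
      Complex.ofReal_zero, zero_mul, zero_add]
  rw [hdet, hden, abs_of_pos (by positivity)]
  simp only [ContinuousAlgEquiv.refl_apply, Complex.ofReal_pow, Complex.ofReal_natCast]
  rw [show (2 : ℤ) - 1 = 1 by norm_num, zpow_one, mul_assoc, _root_.zpow_neg, zpow_ofNat,
    mul_inv_cancel₀ (pow_ne_zero 2 hp0), mul_one]

/-- Weight 2, positive determinant: the Petersson integrand is equivariant. -/
theorem petersson_slash_of_det_pos {α : GL (Fin 2) ℝ} (hα : 0 < α.det.val) (F G : ℍ → ℂ) (τ : ℍ) :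
    petersson 2 (F ∣[(2 : ℤ)] α) (G ∣[(2 : ℤ)] α) τ = petersson 2 F G (α • τ) := by
  rw [petersson_slash, UpperHalfPlane.σ, if_pos hα]
  simp

/-! ### The family `Ψ` -/

/-- `Ψ_α(x) = P(F|α, G)(α⁻¹ x)`. -/
noncomputable def Psi (F G : ℍ → ℂ) (α : GL (Fin 2) ℝ) (x : ℍ) : ℂ :=
  petersson 2 (F ∣[(2 : ℤ)] α) G (α⁻¹ • x)

theorem Psi_smul (F G : ℍ → ℂ) (α : GL (Fin 2) ℝ) (x : ℍ) :
    Psi F G α (α • x) = petersson 2 (F ∣[(2 : ℤ)] α) G x := by
  unfold Psi
  rw [inv_smul_smul]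

theorem Psi_bRep (F G : ℍ → ℂ) (j : Option (ZMod p)) (x : ℍ) :
    Psi F G (bRep p j) x = petersson 2 F (G ∣[(2 : ℤ)] glBeta p j) x := by
  unfold Psi bRep
  rw [SlashAction.slash_mul, slash_scal, _root_.mul_inv_rev, inv_inv, mul_smul, scal_inv_smul,
    ← petersson_slash_of_det_pos (det_glBeta_pos j), ← SlashAction.slash_mul, inv_mul_cancel,
    SlashAction.slash_one]

theorem continuous_Psi {F G : ℍ → ℂ} (hF : MDiff F) (hG : Continuous G) (α : GL (Fin 2) ℝ) :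
    Continuous (Psi F G α) := by
  unfold Psi
  exact (petersson_continuous 2 (hF.slash 2 α).continuous hG).comp (continuous_const_smul α⁻¹)

/-! ### Bounds -/

theorem norm_slash_le {F : ℍ → ℂ} {C : ℝ} (hF : ∀ τ : ℍ, ‖F τ‖ ≤ C / τ.im) (α : GL (Fin 2) ℝ)
    (τ : ℍ) : ‖(F ∣[(2 : ℤ)] α) τ‖ ≤ C / τ.im := by
  rw [ModularForm.slash_apply]
  have hD : 0 < |α.det.val| := abs_pos.mpr α.det_ne_zero
  have hden : denom α τ ≠ 0 := denom_ne_zero α τ
  have hn : 0 < ‖denom α τ‖ := norm_pos_iff.mpr hden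
  have hy : 0 < τ.im := τ.im_pos
  have him : (α • τ).im = |α.det.val| * τ.im / ‖denom α τ‖ ^ 2 := by
    rw [im_smul_eq_div_normSq, Complex.normSq_eq_norm_sq]
  have h1 := hF (α • τ)
  rw [him] at h1
  rw [norm_mul, norm_mul, norm_σ, norm_zpow, norm_zpow, Complex.norm_real, Real.norm_eq_abs, abs_abs,
    show (2 : ℤ) - 1 = 1 by norm_num, zpow_one, _root_.zpow_neg, zpow_ofNat]
  calc ‖F (α • τ)‖ * |α.det.val| * (‖denom α τ‖ ^ 2)⁻¹
      ≤ C / (|α.det.val| * τ.im / ‖denom α τ‖ ^ 2) * |α.det.val| * (‖denom α τ‖ ^ 2)⁻¹ := by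
        gcongr
    _ = C / τ.im := by
        field_simp

theorem norm_petersson_le {F G : ℍ → ℂ} {C C' : ℝ} (hF : ∀ τ : ℍ, ‖F τ‖ ≤ C / τ.im)
    (hG : ∀ τ : ℍ, ‖G τ‖ ≤ C' / τ.im) (τ : ℍ) : ‖petersson 2 F G τ‖ ≤ C * C' := by
  have hy : 0 < τ.im := τ.im_pos
  have hC : 0 ≤ C := by
    have h0 : 0 ≤ C / τ.im := (norm_nonneg _).trans (hF τ)
    have h1 : 0 ≤ C / τ.im * τ.im := mul_nonneg h0 hy.le
    rwa [div_mul_cancel₀ _ hy.ne'] at h1
  unfold petersson
  rw [norm_mul, norm_mul, Complex.norm_conj, norm_zpow, Complex.norm_real, Real.norm_eq_abs,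
    abs_of_pos hy, zpow_ofNat]
  calc ‖F τ‖ * ‖G τ‖ * τ.im ^ 2 ≤ (C / τ.im) * (C' / τ.im) * τ.im ^ 2 := by
        gcongr
        · exact hF τ
        · exact hG τ
    _ = C * C' := by field_simp

/-! ### Equivariance of `Ψ` for cusp forms on `Γ₀(N)` -/

section main

variable [NeZero N] (f g : CuspForm (Gamma0 N) 2)

omit [NeZero N] in
theorem slash_eq_of_mem (f : CuspForm (Gamma0 N) 2) {γ : GL (Fin 2) ℝ} (hγ : γ ∈ GamG N) :
    (⇑f) ∣[(2 : ℤ)] γ = ⇑f :=
  SlashInvariantFormClass.slash_action_eq f γ hγ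

omit hp in
theorem Psi_mul_right (α : GL (Fin 2) ℝ) (γ : GamG N) :
    Psi f g (α * γ) = Psi f g α := by
  funext x
  unfold Psi
  rw [SlashAction.slash_mul, _root_.mul_inv_rev, mul_smul]
  conv_lhs => rw [← slash_eq_of_mem g γ.2]
  rw [petersson_slash_of_det_pos (det_pos_of_mem_GamG γ.2), smul_inv_smul]

omit hp in
theorem Psi_mul_left (α : GL (Fin 2) ℝ) (γ : GamG N) (x : ℍ) :
    Psi f g (γ * α) x = Psi f g α ((γ : GL (Fin 2) ℝ)⁻¹ • x) := by
  unfold Psi
  rw [SlashAction.slash_mul, slash_eq_of_mem f γ.2, _root_.mul_inv_rev, mul_smul]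

omit hp [NeZero N] in
theorem ae_tsum_GamG {w : ℍ → ENNReal}
    (hw : Unfold12.IsPartition (Gamma0 N) (volume : Measure ℍ) w) :
    ∀ᵐ x ∂(volume : Measure ℍ), ∑' γ : GamG N, w ((γ : GL (Fin 2) ℝ) • x) = 1 := by
  filter_upwards [hw.2] with x hx
  rw [← hx]
  let e : Gamma0 N ≃ GamG N :=
    ((Gamma0 N).equivMapOfInjective (mapGL ℝ) mapGL_injective).toEquiv
  exact (e.tsum_eq (fun γ : GamG N => w ((γ : GL (Fin 2) ℝ) • x))).symm

omit hp in
theorem petersson_sum_left {ι : Type*} (s : Finset ι) (F : ι → ℍ → ℂ) (G : ℍ → ℂ) (x : ℍ) :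
    petersson 2 (∑ i ∈ s, F i) G x = ∑ i ∈ s, petersson 2 (F i) G x := by
  unfold petersson
  rw [Finset.sum_apply, map_sum, Finset.sum_mul, Finset.sum_mul]

omit hp in
theorem petersson_sum_right {ι : Type*} (s : Finset ι) (F : ℍ → ℂ) (G : ι → ℍ → ℂ) (x : ℍ) :
    petersson 2 F (∑ i ∈ s, G i) x = ∑ i ∈ s, petersson 2 F (G i) x := by
  unfold petersson
  rw [Finset.sum_apply, Finset.mul_sum, Finset.sum_mul]

/-- **(P6)** `T_p` is self-adjoint for `⟨f, g⟩ = ∫ w · petersson 2 f g`, `w` any partition function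
for `Γ₀(N)` of finite mass. -/
theorem adjoint_integral (hpN : ¬ p ∣ N) {w : ℍ → ENNReal}
    (hw : Unfold12.IsPartition (Gamma0 N) (volume : Measure ℍ) w)
    (hwf : ∫⁻ x, w x ∂(volume : Measure ℍ) ≠ ⊤) :
    ∫ x, (w x).toReal • petersson 2 (⇑(CuspForm.heckeTLin 2 hp.out hpN f)) (⇑g) x
      = ∫ x, (w x).toReal • petersson 2 (⇑f) (⇑(CuspForm.heckeTLin 2 hp.out hpN g)) x := by
  obtain ⟨Cf, hCf⟩ := CuspFormClass.exists_bound (Γ := (Gamma0 N : Subgroup (GL (Fin 2) ℝ))) f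
  obtain ⟨Cg, hCg⟩ := CuspFormClass.exists_bound (Γ := (Gamma0 N : Subgroup (GL (Fin 2) ℝ))) g
  have hCf' : ∀ τ : ℍ, ‖f τ‖ ≤ Cf / τ.im := by
    intro τ
    simpa using hCf τ
  have hCg' : ∀ τ : ℍ, ‖g τ‖ ≤ Cg / τ.im := by
    intro τ
    simpa using hCg τ
  have hfc : MDiff (⇑f) := CuspFormClass.holo f
  have hgc : MDiff (⇑g) := CuspFormClass.holo g
  have hwint : Integrable (fun x => (w x).toReal) (volume : Measure ℍ) :=
    integrable_toReal_of_lintegral_ne_top hw.1.aemeasurable hwf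
  have hint : ∀ (P : ℍ → ℂ), Continuous P → (∀ x, ‖P x‖ ≤ Cf * Cg) →
      Integrable (fun x => (w x).toReal • P x) (volume : Measure ℍ) := fun P hP hPC =>
    hwint.smul_bdd (Cf * Cg) hP.aestronglyMeasurable (Filter.Eventually.of_forall hPC)
  haveI := countable_GamG N
  have key := SelfAdjAbs17.unfold_complex (μ := (volume : Measure ℍ)) (GamG N) hw.1
    (ae_tsum_GamG hw) hwf (glBeta p) (bRep p) injective_left injective_right
    (range_left_eq_range_right hpN) (Psi f g)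
    (fun α => (continuous_Psi hfc hgc.continuous α).measurable) (C := Cf * Cg)
    (fun i x => norm_petersson_le (norm_slash_le hCf' _) hCg' _)
    (fun j x => norm_petersson_le (norm_slash_le hCf' _) hCg' _)
    (Psi_mul_right f g) (Psi_mul_left f g)
  have hL : ∀ x : ℍ, (w x).toReal • petersson 2 (⇑(CuspForm.heckeTLin 2 hp.out hpN f)) (⇑g) x
      = ∑ i, (w x).toReal • Psi f g (glBeta p i) (glBeta p i • x) := by
    intro x
    rw [CuspForm.coe_heckeTLin_apply, heckeT_eq_sum, petersson_sum_left, Finset.smul_sum]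
    exact Finset.sum_congr rfl fun i _ => by rw [Psi_smul]
  have hR : ∀ x : ℍ, (w x).toReal • petersson 2 (⇑f) (⇑(CuspForm.heckeTLin 2 hp.out hpN g)) x
      = ∑ j, (w x).toReal • Psi f g (bRep p j) x := by
    intro x
    rw [CuspForm.coe_heckeTLin_apply, heckeT_eq_sum, petersson_sum_right, Finset.smul_sum]
    exact Finset.sum_congr rfl fun j _ => by rw [Psi_bRep]
  simp only [hL, hR]
  rw [integral_finsetSum, integral_finsetSum, key]
  · intro j _
    refine hint _ (continuous_Psi hfc hgc.continuous _) fun x => ?_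
    exact norm_petersson_le (norm_slash_le hCf' _) hCg' _
  · intro i _
    refine hint _ ((continuous_Psi hfc hgc.continuous _).comp (continuous_const_smul _)) fun x => ?_
    exact norm_petersson_le (norm_slash_le hCf' _) hCg' _

end main

end Fermat.Agent.ES.PET.SelfAdjHecke17
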