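/-
Program K (S31), chapter PET, FINAL (helper21, chapter lead): **the anemic Hecke algebra
`heckeAlgebra N 2 S` (`S ⊇ {q ∣ N}`) is reduced.**

Assembly of
* (P1)–(P3) `PartitionSL5`/`PartitionGamma5` (helper5) + `Unfold12` (helper12): the partition
  function `wΓ (Γ₀(N))` of finite mass,
* (P5) `PetForm10`/`PetGamma10` (helper10): the Petersson form `petB N 2` is biadditive and definite,
* (P6) `SelfAdjAbs17`/`SelfAdjHecke17` (helper17): `T_ℓ`, `ℓ ∤ N`, is self-adjoint,
* (P7) `Reduced15` (helper15): such a form forces reducedness,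
in the shapes consumed by `ES/S31/SepGlue27.s31_of_s30_of_reduced` (`Skeleton27.ReducedStmt`) and
`ES/ALG31/S31OfReduced15.s31_of_reduced`.
-/
import Fermat.Agent.ES.PET.PetGamma10
import Fermat.Agent.ES.PET.SelfAdjHecke17
import Fermat.Agent.ES.S31.Skeleton27

set_option autoImplicit false

namespace Fermat.Agent.ES.PET.PetFinal21

open UpperHalfPlane MeasureTheory CongruenceSubgroup
open Fermat.Agent.ES.PET.PartitionGamma5 Fermat.Agent.ES.PET.PetGamma10

/-- **(P6)** for the form of record. -/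
theorem petB_adjoint (N : ℕ) [NeZero N] (ℓ : ℕ) (hℓ : ℓ.Prime) (hℓN : ¬ ℓ ∣ N)
    (f g : CuspForm (Gamma0 N) 2) :
    petB N 2 (CuspForm.heckeTLin 2 hℓ hℓN f) g = petB N 2 f (CuspForm.heckeTLin 2 hℓ hℓN g) := by
  haveI : Fact ℓ.Prime := ⟨hℓ⟩
  exact Fermat.Agent.ES.PET.SelfAdjHecke17.adjoint_integral (p := ℓ) f g hℓN
    (isPartition_wΓ (Gamma0 N)) (lintegral_wΓ_ne_top (Gamma0 N))

/-- the Petersson form as helper15's contract. -/
noncomputable def peterssonForm (N : ℕ) [NeZero N] : Fermat.Agent.ES.PET.Reduced15.PeterssonForm N :=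
  peterssonFormOfAdjoint (petB_adjoint N)

/-- **(A) PET-out**: the anemic Hecke algebra of weight 2 is reduced. -/
theorem isReduced_heckeAlgebra (N : ℕ) [NeZero N] (S : Set ℕ)
    (hNS : ∀ q : ℕ, q.Prime → q ∣ N → q ∈ S) : IsReduced (CuspForm.heckeAlgebra N 2 S) :=
  isReduced_heckeAlgebra_of_adjoint (petB_adjoint N) S hNS

/-- the contract of `ES/S31/Skeleton27`. -/
theorem reducedStmt : Fermat.Agent.ES.S31.Skeleton27.ReducedStmt :=
  fun N _ S hNS => isReduced_heckeAlgebra N (↑S : Set ℕ) hNS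

end Fermat.Agent.ES.PET.PetFinal21
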