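import Fermat.Agent.ES.PET.SelfAdjHecke17
import Fermat.Agent.ES.PET.PetGamma10

/-!
# The anemic Hecke algebra of weight 2 is reduced (S31, chapter PET, final closure (A)/(P7))

`PetGamma10.isReduced_heckeAlgebra_of_adjoint` (helper10: form of record `petB`, biadditive,
definite) + `SelfAdjHecke17.adjoint_integral` (self-adjointness of `T_ℓ`, `ℓ ∤ N`, for any
partition function of finite mass) + `PartitionGamma5` (helper5: the partition function `wΓ`).
-/

open CongruenceSubgroup

namespace Fermat.Agent.ES.PET.ReducedFinal17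

open Fermat.Agent.ES.PET.PetGamma10 Fermat.Agent.ES.PET.PartitionGamma5
  Fermat.Agent.ES.PET.SelfAdjHecke17

variable (N : ℕ) [NeZero N]

/-- **(P6)** for the Petersson form of record. -/
theorem petB_adjoint (ℓ : ℕ) (hℓ : ℓ.Prime) (hℓN : ¬ ℓ ∣ N) (f g : CuspForm (Gamma0 N) 2) :
    petB N 2 (CuspForm.heckeTLin 2 hℓ hℓN f) g = petB N 2 f (CuspForm.heckeTLin 2 hℓ hℓN g) := by
  haveI : Fact ℓ.Prime := ⟨hℓ⟩
  exact adjoint_integral f g hℓN (isPartition_wΓ (Gamma0 N)) (lintegral_wΓ_ne_top (Gamma0 N))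

/-- The Petersson form of record as helper15's contract. -/
noncomputable def peterssonForm : Reduced15.PeterssonForm N :=
  peterssonFormOfAdjoint (petB_adjoint N)

/-- **(A)/(P7), unconditional**: for `S ⊇ {primes dividing N}` the Hecke algebra
`heckeAlgebra N 2 S` (generated by the `T_ℓ`, `ℓ ∤ N`, `ℓ ∉ S`) is reduced. -/
theorem isReduced_heckeAlgebra (S : Set ℕ) (hNS : ∀ q : ℕ, q.Prime → q ∣ N → q ∈ S) :
    IsReduced (CuspForm.heckeAlgebra N 2 S) :=
  isReduced_heckeAlgebra_of_adjoint (petB_adjoint N) S hNS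

end Fermat.Agent.ES.PET.ReducedFinal17
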