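/-
Program S31, chapter PET (hedge route A), leaf (X2) (helper15): in weight two scalar matrices act
trivially, hence `(g ∣[2] β₀) ∣[2] β_∞ = g` for `β₀ = glBeta ℓ (some 0) = [[1,0],[0,ℓ]]`,
`β_∞ = glBeta ℓ none = [[ℓ,0],[0,1]]`, and the Petersson integrand moves `β_∞` from the left slot
to `β₀` in the right slot.
-/
import Mathlib
import Fermat.Agent.ES.HEQ.DoubleCoset27

set_option autoImplicit false

noncomputable section

namespace Fermat.Agent.ES.PET.SlashScalar15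

open Fermat.Agent.ES.HEQ.DoubleCoset27 CongruenceSubgroup UpperHalfPlane
open scoped ModularForm MatrixGroups

variable {ℓ : ℕ} [hℓ : Fact ℓ.Prime]

/-- the product `β₀ β_∞` is the scalar matrix `ℓ`. -/
theorem coe_glBeta_zero_mul_none :
    ((glBeta ℓ (some 0) * glBeta ℓ none : GL (Fin 2) ℝ) : Matrix (Fin 2) (Fin 2) ℝ) =
      !![(ℓ : ℝ), 0; 0, (ℓ : ℝ)] := by
  have hℓ0 : ℓ ≠ 0 := hℓ.out.ne_zero
  rw [Matrix.GeneralLinearGroup.coe_mul, glBeta_some, glBeta_none,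
    ModularForm.val_heckeMatrix hℓ0, ModularForm.val_heckeDiagMatrix hℓ0]
  ext i j
  fin_cases i <;> fin_cases j <;> simp [Matrix.mul_apply, Fin.sum_univ_two]

/-- weight two: a scalar matrix acts trivially. -/
theorem slash_two_of_scalar (A : GL (Fin 2) ℝ) {c : ℝ} (hc : c ≠ 0)
    (hA : (A : Matrix (Fin 2) (Fin 2) ℝ) = !![c, 0; 0, c]) (g : ℍ → ℂ) :
    g ∣[(2 : ℤ)] A = g := by
  have hdet : A.det.val = c * c := by
    rw [Matrix.GeneralLinearGroup.val_det_apply, hA, Matrix.det_fin_two_of]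
    ring
  have hpos : 0 < A.det.val := by
    rw [hdet]
    exact mul_self_pos.mpr hc
  have hsmul : ∀ z : ℍ, A • z = z := by
    intro z
    apply UpperHalfPlane.ext
    rw [UpperHalfPlane.coe_smul_of_det_pos hpos]
    have hcc : (c : ℂ) ≠ 0 := by exact_mod_cast hc
    simp only [UpperHalfPlane.num, UpperHalfPlane.denom, hA]
    simp
    field_simp
  ext z
  rw [ModularForm.slash_apply, hsmul]
  have hσ : ∀ w : ℂ, UpperHalfPlane.σ A w = w := by
    intro w
    unfold UpperHalfPlane.σ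
    rw [if_pos hpos]
    rfl
  have hden : UpperHalfPlane.denom A z = (c : ℂ) := by
    simp [UpperHalfPlane.denom, hA]
  rw [hσ, hden, hdet]
  have hcc : (c : ℂ) ≠ 0 := by exact_mod_cast hc
  have habs : |c * c| = c * c := abs_of_pos (mul_self_pos.mpr hc)
  rw [habs]
  push_cast
  have : ((c : ℂ) * c) ^ (1 : ℤ) * (c : ℂ) ^ (-(2 : ℤ)) = 1 := by
    rw [zpow_one, zpow_neg, zpow_two]
    field_simp
  rw [mul_assoc, this, mul_one]

/-- **(X2a)** `(g ∣[2] β₀) ∣[2] β_∞ = g`. -/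
theorem slash_zero_none (g : ℍ → ℂ) :
    (g ∣[(2 : ℤ)] glBeta ℓ (some 0)) ∣[(2 : ℤ)] glBeta ℓ none = g := by
  rw [← SlashAction.slash_mul]
  exact slash_two_of_scalar _ (Nat.cast_ne_zero.mpr hℓ.out.ne_zero) coe_glBeta_zero_mul_none g

/-- the mirror statement `(g ∣[2] β_∞) ∣[2] β₀ = g`. -/
theorem slash_none_zero (g : ℍ → ℂ) :
    (g ∣[(2 : ℤ)] glBeta ℓ none) ∣[(2 : ℤ)] glBeta ℓ (some 0) = g := by
  rw [← SlashAction.slash_mul]
  refine slash_two_of_scalar _ (Nat.cast_ne_zero.mpr hℓ.out.ne_zero) ?_ g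
  have hℓ0 : ℓ ≠ 0 := hℓ.out.ne_zero
  rw [Matrix.GeneralLinearGroup.coe_mul, glBeta_some, glBeta_none,
    ModularForm.val_heckeMatrix hℓ0, ModularForm.val_heckeDiagMatrix hℓ0]
  ext i j
  fin_cases i <;> fin_cases j <;> simp [Matrix.mul_apply, Fin.sum_univ_two]

/-- **(X2b)** the Petersson integrand: `β_∞` in the left slot becomes `β₀` in the right slot. -/
theorem petersson_slash_none (f g : ℍ → ℂ) (z : ℍ) :
    petersson 2 (f ∣[(2 : ℤ)] glBeta ℓ none) g z =
      petersson 2 f (g ∣[(2 : ℤ)] glBeta ℓ (some 0)) (glBeta ℓ none • z) := by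
  have hℓ0 : ℓ ≠ 0 := hℓ.out.ne_zero
  have hpos : 0 < (glBeta ℓ none : GL (Fin 2) ℝ).det.val := by
    rw [Matrix.GeneralLinearGroup.val_det_apply, glBeta_none, ModularForm.val_heckeDiagMatrix hℓ0,
      Matrix.det_fin_two_of]
    simp
    exact Nat.pos_of_ne_zero hℓ0
  have hσ : ∀ w : ℂ, UpperHalfPlane.σ (glBeta ℓ none) w = w := by
    intro w
    unfold UpperHalfPlane.σ
    rw [if_pos hpos]
    rfl
  conv_lhs => rw [← slash_zero_none (ℓ := ℓ) g]
  rw [petersson_slash, hσ, sub_self, zpow_zero, one_mul]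

end Fermat.Agent.ES.PET.SlashScalar15
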