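/-
Program K (S31), chapter PET, leaf (X1): the stabilisers of `none` and of `some 0` in the double-coset
action of `SL(2, ℤ)` on `Option (ZMod ℓ)` are conjugate by `β_∞ = glBeta ℓ none`.

* `beta_zero_mul_coc`: `perm σ none = none → β₀ * coc σ none = σ * β₀` (`β₀ = beta ℓ (some 0)`), hence
  `perm_coc_none`, `coc_coc_none`; mirror statements `beta_none_mul_coc`, `perm_coc_zero`,
  `coc_coc_zero` for `perm σ (some 0) = some 0`;
* `mapGL_coc_none`, `mapGL_coc_zero`: the cocycle is conjugation by `glBeta` in `GL(2, ℝ)`.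
-/
import Fermat.Agent.ES.HEQ.DoubleCoset27

set_option autoImplicit false

open Fermat.Agent.ES.HEQ.DoubleCoset27 CongruenceSubgroup UpperHalfPlane
open scoped ModularForm MatrixGroups

noncomputable section

namespace Fermat.Agent.ES.PET.StabConj14

variable {ℓ : ℕ} [hℓ : Fact ℓ.Prime]

theorem beta_zero_mul_beta_none :
    beta ℓ (some 0) * beta ℓ none = (ℓ : ℤ) • (1 : Matrix (Fin 2) (Fin 2) ℤ) := by
  ext a b
  fin_cases a <;> fin_cases b <;> simp [beta, Matrix.mul_apply, Fin.sum_univ_two]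

theorem beta_none_mul_beta_zero :
    beta ℓ none * beta ℓ (some 0) = (ℓ : ℤ) • (1 : Matrix (Fin 2) (Fin 2) ℤ) := by
  ext a b
  fin_cases a <;> fin_cases b <;> simp [beta, Matrix.mul_apply, Fin.sum_univ_two]

private theorem smul_cancel {A B : Matrix (Fin 2) (Fin 2) ℤ}
    (h : (ℓ : ℤ) • A = (ℓ : ℤ) • B) : A = B := by
  have hℓ0 : (ℓ : ℤ) ≠ 0 := by exact_mod_cast hℓ.out.ne_zero
  ext a b
  have h3 := congrFun (congrFun h a) b
  simp only [Matrix.smul_apply, smul_eq_mul] at h3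
  exact mul_left_cancel₀ hℓ0 h3

/-- If `σ` fixes `none`, then `β₀ · coc σ none = σ · β₀`, `β₀ = beta ℓ (some 0)`. -/
theorem beta_zero_mul_coc (σ : SL(2, ℤ)) (h : perm (p := ℓ) σ none = none) :
    beta ℓ (some 0) * (coc (p := ℓ) σ none : Matrix (Fin 2) (Fin 2) ℤ)
      = (σ : Matrix (Fin 2) (Fin 2) ℤ) * beta ℓ (some 0) := by
  have h1 := beta_mul (p := ℓ) σ none
  rw [h] at h1
  -- `β∞ σ = c β∞`
  have h2 : (ℓ : ℤ) • ((σ : Matrix (Fin 2) (Fin 2) ℤ) * beta ℓ (some 0)) =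
      (ℓ : ℤ) • (beta ℓ (some 0) * (coc (p := ℓ) σ none : Matrix (Fin 2) (Fin 2) ℤ)) := by
    calc (ℓ : ℤ) • ((σ : Matrix (Fin 2) (Fin 2) ℤ) * beta ℓ (some 0))
        = (beta ℓ (some 0) * beta ℓ none) * (σ : Matrix (Fin 2) (Fin 2) ℤ) * beta ℓ (some 0) := by
          rw [beta_zero_mul_beta_none, Matrix.smul_mul, Matrix.one_mul, Matrix.smul_mul]
      _ = beta ℓ (some 0) * (beta ℓ none * (σ : Matrix (Fin 2) (Fin 2) ℤ)) * beta ℓ (some 0) := by
          rw [Matrix.mul_assoc (beta ℓ (some 0))]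
      _ = beta ℓ (some 0) * (coc (p := ℓ) σ none : Matrix (Fin 2) (Fin 2) ℤ) *
            (beta ℓ none * beta ℓ (some 0)) := by
          rw [h1]
          simp only [Matrix.mul_assoc]
      _ = (ℓ : ℤ) • (beta ℓ (some 0) * (coc (p := ℓ) σ none : Matrix (Fin 2) (Fin 2) ℤ)) := by
          rw [beta_none_mul_beta_zero, Matrix.mul_smul, Matrix.mul_one]
  exact (smul_cancel h2).symm

theorem perm_coc_none (σ : SL(2, ℤ)) (h : perm (p := ℓ) σ none = none) :
    perm (p := ℓ) (coc (p := ℓ) σ none) (some 0) = some 0 :=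
  (eq_of_beta_mul (beta_zero_mul_coc σ h)).1

theorem coc_coc_none (σ : SL(2, ℤ)) (h : perm (p := ℓ) σ none = none) :
    coc (p := ℓ) (coc (p := ℓ) σ none) (some 0) = σ :=
  (eq_of_beta_mul (beta_zero_mul_coc σ h)).2

/-- Mirror statement: if `σ` fixes `some 0`, then `β∞ · coc σ (some 0) = σ · β∞`. -/
theorem beta_none_mul_coc (σ : SL(2, ℤ)) (h : perm (p := ℓ) σ (some 0) = some 0) :
    beta ℓ none * (coc (p := ℓ) σ (some 0) : Matrix (Fin 2) (Fin 2) ℤ)
      = (σ : Matrix (Fin 2) (Fin 2) ℤ) * beta ℓ none := by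
  have h1 := beta_mul (p := ℓ) σ (some 0)
  rw [h] at h1
  have h2 : (ℓ : ℤ) • ((σ : Matrix (Fin 2) (Fin 2) ℤ) * beta ℓ none) =
      (ℓ : ℤ) • (beta ℓ none * (coc (p := ℓ) σ (some 0) : Matrix (Fin 2) (Fin 2) ℤ)) := by
    calc (ℓ : ℤ) • ((σ : Matrix (Fin 2) (Fin 2) ℤ) * beta ℓ none)
        = (beta ℓ none * beta ℓ (some 0)) * (σ : Matrix (Fin 2) (Fin 2) ℤ) * beta ℓ none := by
          rw [beta_none_mul_beta_zero, Matrix.smul_mul, Matrix.one_mul, Matrix.smul_mul]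
      _ = beta ℓ none * (beta ℓ (some 0) * (σ : Matrix (Fin 2) (Fin 2) ℤ)) * beta ℓ none := by
          rw [Matrix.mul_assoc (beta ℓ none)]
      _ = beta ℓ none * (coc (p := ℓ) σ (some 0) : Matrix (Fin 2) (Fin 2) ℤ) *
            (beta ℓ (some 0) * beta ℓ none) := by
          rw [h1]
          simp only [Matrix.mul_assoc]
      _ = (ℓ : ℤ) • (beta ℓ none * (coc (p := ℓ) σ (some 0) : Matrix (Fin 2) (Fin 2) ℤ)) := by
          rw [beta_zero_mul_beta_none, Matrix.mul_smul, Matrix.mul_one]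
  exact (smul_cancel h2).symm

theorem perm_coc_zero (σ : SL(2, ℤ)) (h : perm (p := ℓ) σ (some 0) = some 0) :
    perm (p := ℓ) (coc (p := ℓ) σ (some 0)) none = none :=
  (eq_of_beta_mul (beta_none_mul_coc σ h)).1

theorem coc_coc_zero (σ : SL(2, ℤ)) (h : perm (p := ℓ) σ (some 0) = some 0) :
    coc (p := ℓ) (coc (p := ℓ) σ (some 0)) none = σ :=
  (eq_of_beta_mul (beta_none_mul_coc σ h)).2

/-- The cocycle at `none` is conjugation by `β∞ = glBeta ℓ none` in `GL(2, ℝ)`. -/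
theorem mapGL_coc_none (σ : SL(2, ℤ)) (h : perm (p := ℓ) σ none = none) :
    Matrix.SpecialLinearGroup.mapGL ℝ (coc (p := ℓ) σ none)
      = glBeta ℓ none * Matrix.SpecialLinearGroup.mapGL ℝ σ * (glBeta ℓ none)⁻¹ := by
  have h1 := glBeta_mul (p := ℓ) σ none
  rw [h] at h1
  rw [h1, mul_inv_cancel_right]

/-- Mirror: the cocycle at `some 0` is conjugation by `β₀ = glBeta ℓ (some 0)`. -/
theorem mapGL_coc_zero (σ : SL(2, ℤ)) (h : perm (p := ℓ) σ (some 0) = some 0) :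
    Matrix.SpecialLinearGroup.mapGL ℝ (coc (p := ℓ) σ (some 0))
      = glBeta ℓ (some 0) * Matrix.SpecialLinearGroup.mapGL ℝ σ * (glBeta ℓ (some 0))⁻¹ := by
  have h1 := glBeta_mul (p := ℓ) σ (some 0)
  rw [h] at h1
  rw [h1, mul_inv_cancel_right]

end Fermat.Agent.ES.PET.StabConj14
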